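import Mathlib
import Fermat.Prelude.Def_FormalHecke_Eigensystem

set_option autoImplicit false

namespace Fermat.Agent.S49.helper49

open FormalHecke

variable {R : Type*} [CommRing R]

/-- Prime power recursion from the eigensystem relation. -/
theorem eig_prime_pow {e a : ℕ → R} (h : IsEigensystem e a) (ℓ r : ℕ) (hℓ : ℓ.Prime) :
    a (ℓ ^ (r + 2)) = a ℓ * a (ℓ ^ (r + 1)) - e ℓ * a (ℓ ^ r) := by
  have h1 := h.2 ℓ hℓ (ℓ ^ (r + 1))
  have hdvd : ℓ ∣ ℓ ^ (r + 1) := dvd_pow_self ℓ (Nat.succ_ne_zero r)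
  have hdiv : ℓ ^ (r + 1) / ℓ = ℓ ^ r := by
    rw [pow_succ, Nat.mul_div_cancel _ hℓ.pos]
  rw [if_pos hdvd, hdiv] at h1
  have h2 : ℓ ^ (r + 2) = ℓ * ℓ ^ (r + 1) := by ring
  rw [h2]
  linear_combination h1

theorem eig_prime_pow_mul {e a : ℕ → R} (h : IsEigensystem e a) (ℓ : ℕ) (hℓ : ℓ.Prime)
    (n : ℕ) (hn : ¬ ℓ ∣ n) : ∀ r : ℕ, a (ℓ ^ r * n) = a (ℓ ^ r) * a n := by
  intro r
  induction r using Nat.twoStepInduction with
  | zero => simp [h.1]
  | one =>
    have h1 := h.2 ℓ hℓ n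
    rw [if_neg hn, mul_zero, add_zero] at h1
    simpa using h1
  | more r ih0 ih1 =>
    have h1 := h.2 ℓ hℓ (ℓ ^ (r + 1) * n)
    have hdvd : ℓ ∣ ℓ ^ (r + 1) * n := Dvd.dvd.mul_right (dvd_pow_self ℓ (Nat.succ_ne_zero r)) n
    have hdiv : ℓ ^ (r + 1) * n / ℓ = ℓ ^ r * n := by
      rw [pow_succ, mul_assoc, mul_comm ℓ n, ← mul_assoc, Nat.mul_div_cancel _ hℓ.pos]
    rw [if_pos hdvd, hdiv, ih0, ih1] at h1
    have h2 : ℓ ^ (r + 2) * n = ℓ * (ℓ ^ (r + 1) * n) := by ring
    rw [h2, eig_prime_pow h ℓ r hℓ]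
    linear_combination h1

theorem eig_mul_of_coprime {e a : ℕ → R} (h : IsEigensystem e a) :
    ∀ m n : ℕ, m.Coprime n → a (m * n) = a m * a n := by
  intro m
  induction m using Nat.recOnPosPrimePosCoprime with
  | prime_pow p k hp hk =>
    intro n hn
    refine eig_prime_pow_mul h p hp n ?_ k
    intro hdvd
    have h1 : p ∣ Nat.gcd (p ^ k) n := Nat.dvd_gcd (dvd_pow_self p hk.ne') hdvd
    rw [Nat.Coprime] at hn
    rw [hn] at h1
    exact hp.one_lt.ne' (Nat.dvd_one.1 h1)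
  | zero =>
    intro n hn
    have : n = 1 := by simpa using hn
    subst this
    simp [h.1]
  | one =>
    intro n _
    simp [h.1]
  | coprime x y hx hy hxy ihx ihy =>
    intro n hn
    have hxn : x.Coprime n := Nat.Coprime.coprime_dvd_left (Dvd.intro _ rfl) hn
    have hyn : y.Coprime n := Nat.Coprime.coprime_dvd_left (Dvd.intro_left _ rfl) hn
    rw [mul_assoc, ihx (y * n) (Nat.Coprime.mul_right hxy hxn), ihy n hyn, ihx y hxy, mul_assoc]

theorem isRecursive_of_isEigensystem {e a : ℕ → R} (h : IsEigensystem e a) : IsRecursive e a :=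
  ⟨h.1, eig_mul_of_coprime h, fun ℓ r hℓ => eig_prime_pow h ℓ r hℓ⟩

/-- If the relation holds with arbitrary eigenvalues and `b 1 = 0`, all positive coefficients
vanish. -/
theorem eig_vanish {e lam b : ℕ → R}
    (h : ∀ ℓ : ℕ, ℓ.Prime → ∀ n : ℕ,
      b (ℓ * n) + e ℓ * (if ℓ ∣ n then b (n / ℓ) else 0) = lam ℓ * b n)
    (h1 : b 1 = 0) : ∀ n : ℕ, 1 ≤ n → b n = 0 := by
  intro n
  induction n using Nat.strong_induction_on with
  | _ n ih =>
    intro hn
    rcases Nat.lt_or_ge 1 n with hlt | hle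
    · have hp : (Nat.minFac n).Prime := Nat.minFac_prime (by omega)
      obtain ⟨m, hm⟩ := Nat.minFac_dvd n
      have hmpos : 1 ≤ m := by
        rcases Nat.eq_zero_or_pos m with h0 | h0
        · subst h0; omega
        · exact h0
      have hmlt : m < n := by
        have := hp.one_lt
        nlinarith
      have h2 := h _ hp m
      rw [← hm, ih m hmlt hmpos, mul_zero] at h2
      by_cases hd : Nat.minFac n ∣ m
      · rw [if_pos hd] at h2
        have hq : 1 ≤ m / Nat.minFac n := Nat.div_pos (Nat.le_of_dvd (by omega) hd) hp.pos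
        have hq2 : m / Nat.minFac n < n := lt_of_le_of_lt (Nat.div_le_self _ _) hmlt
        rw [ih _ hq2 hq, mul_zero, add_zero] at h2
        exact h2
      · rw [if_neg hd, mul_zero, add_zero] at h2
        exact h2
    · have : n = 1 := by omega
      rw [this]; exact h1

end Fermat.Agent.S49.helper49
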