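import Fermat.Statements.S49
import Fermat.Prelude.Def_CuspForm_HeckeAlgebra
import Fermat.Prelude.Thm_CuspForm_intLattice_fg
import Fermat.Prelude.Thm_CuspForm_mem_intLattice_of_mem_heckeAlgebra
import Fermat.Prelude.Thm_ModularFormClass_qCoeff_heckeT
import Fermat.Prelude.Thm_ModularFormClass_qCoeff_heckeU
import Fermat.Prelude.Thm_CongruenceSubgroup_one_mem_strictPeriods_Gamma0
import Fermat.Agent.S49.helper49_Formal

/-!
q-expansion side of the lifting lemma S49: Hecke action on q-coefficients of weight-2 cusp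
forms of level `Gamma0 N`, the mod-3 congruence ideal, and normalisation of eigenvectors.
-/

set_option autoImplicit false

open CuspForm EisensteinWeightOne CongruenceSubgroup ModularFormClass

namespace Fermat.Agent.S49.helper529

variable {N : ℕ}

theorem hΓ0 (N : ℕ) :
    (1 : ℝ) ∈ (Subgroup.map (Matrix.SpecialLinearGroup.mapGL ℝ) (Gamma0 N)).strictPeriods :=
  CongruenceSubgroup.one_mem_strictPeriods_Gamma0 N

theorem qCoeff_smulC (c : ℂ) (f : CuspForm (Gamma0 N) 2) (n : ℕ) :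
    qCoeff ⇑(c • f) n = c * qCoeff ⇑f n := by
  have h1 : ⇑(c • f) = c • ⇑f := by
    ext z
    simp
  simp only [qCoeff, h1]
  rw [ModularForm.qExpansion_smul one_pos (hΓ0 N) c f]
  simp

theorem qCoeff_addC (f g : CuspForm (Gamma0 N) 2) (n : ℕ) :
    qCoeff ⇑(f + g) n = qCoeff ⇑f n + qCoeff ⇑g n :=
  P2MW.S_CuspForm_intLattice_fg.W3WsD.qCoeff_add f g n

theorem qCoeff_subC (f g : CuspForm (Gamma0 N) 2) (n : ℕ) :
    qCoeff ⇑(f - g) n = qCoeff ⇑f n - qCoeff ⇑g n := by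
  have h : f - g = f + (-1 : ℂ) • g := by
    rw [neg_one_smul, sub_eq_add_neg]
  rw [h, qCoeff_addC, qCoeff_smulC]
  ring

theorem qCoeff_heckeTLin {ℓ : ℕ} (hℓ : ℓ.Prime) (hℓN : ¬ ℓ ∣ N) (f : CuspForm (Gamma0 N) 2)
    (n : ℕ) :
    qCoeff ⇑(CuspForm.heckeTLin 2 hℓ hℓN f) n =
      qCoeff ⇑f (n * ℓ) + if ℓ ∣ n then (ℓ : ℂ) * qCoeff ⇑f (n / ℓ) else 0 := by
  rw [CuspForm.coe_heckeTLin_apply, ModularFormClass.qCoeff_heckeT f (hΓ0 N) hℓ.ne_zero n,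
    ModularForm.coeffHeckeT_apply]
  norm_num

theorem qCoeff_heckeULin [NeZero N] {q : ℕ} (hq : q ≠ 0) (hqN : q ∣ N)
    (f : CuspForm (Gamma0 N) 2) (n : ℕ) :
    qCoeff ⇑(CuspForm.heckeULin 2 hqN f) n = qCoeff ⇑f (n * q) := by
  rw [CuspForm.coe_heckeULin_apply, ModularFormClass.qCoeff_heckeU f (hΓ0 N) hq n,
    ModularForm.coeffHeckeU_apply]

theorem qCoeff_zero_eq (f : CuspForm (Gamma0 N) 2) : qCoeff ⇑f 0 = 0 :=
  CuspFormClass.qExpansion_coeff_zero f one_pos (hΓ0 N)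

theorem eq_zero_of_qCoeff_eq_zero [NeZero N] (f : CuspForm (Gamma0 N) 2)
    (h : ∀ n, qCoeff ⇑f n = 0) : f = 0 := by
  apply P2MW.S_CuspForm_intLattice_fg.W3WsD.trunc_injective N 2
  rw [map_zero]
  funext i
  exact h i

theorem mem_intLattice_iff' (f : CuspForm (Gamma0 N) 2) :
    f ∈ CuspForm.intLattice N 2 ↔ ∀ n : ℕ, ∃ m : ℤ, qCoeff ⇑f n = (m : ℂ) :=
  P2MW.S_CuspForm_intLattice_fg.W3WsD.mem_intLattice_iff f


/-! ### The mod 3 congruence -/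

theorem chi_mod_three (ℓ : ℕ) : (3 : ℤ) ∣ (ℓ : ℤ) - chiNegThree ℓ := by
  unfold chiNegThree
  split_ifs <;> omega

theorem e1Chi3In_int :
    e1Chi3In ℤ = 1 + PowerSeries.C (3 : ℤ) *
      PowerSeries.mk (fun n => if n = 0 then 0 else 2 * sigmaChi n) := by
  ext n
  simp only [e1Chi3In, e1Chi3, PowerSeries.coeff_map, PowerSeries.coeff_mk, map_add,
    PowerSeries.coeff_one, PowerSeries.coeff_C_mul]
  split_ifs <;> simp
  ring

theorem bridge_coeff_dvd (a : ℕ → ℤ) (n : ℕ) :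
    (3 : ℤ) ∣ (bridgeProduct a).coeff n - a n := by
  rw [bridgeProduct, e1Chi3In_int, mul_add, mul_one, map_add, PowerSeries.coeff_mk,
    add_sub_cancel_left, mul_left_comm, PowerSeries.coeff_C_mul]
  exact dvd_mul_right _ _

/-- The ideal of Hecke operators sending `f` into `3 L`. -/
def congIdeal [NeZero N] (f : CuspForm (Gamma0 N) 2) :
    Ideal (CuspForm.heckeAlgebra N 2 (∅ : Set ℕ)) where
  carrier := {t | ∃ g ∈ CuspForm.intLattice N 2,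
    (t : Module.End ℂ (CuspForm (Gamma0 N) 2)) f = (3 : ℂ) • g}
  add_mem' := by
    rintro s t ⟨g, hg, hs⟩ ⟨g', hg', ht⟩
    refine ⟨g + g', add_mem hg hg', ?_⟩
    change ((s : Module.End ℂ (CuspForm (Gamma0 N) 2)) + t) f = _
    rw [LinearMap.add_apply, hs, ht, smul_add]
  zero_mem' := ⟨0, zero_mem _, by
    change (0 : Module.End ℂ (CuspForm (Gamma0 N) 2)) f = _
    rw [LinearMap.zero_apply, smul_zero]⟩
  smul_mem' := by
    rintro s t ⟨g, hg, ht⟩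
    refine ⟨(s : Module.End ℂ (CuspForm (Gamma0 N) 2)) g,
      CuspForm.mem_intLattice_of_mem_heckeAlgebra one_le_two s.2 hg, ?_⟩
    change ((s : Module.End ℂ (CuspForm (Gamma0 N) 2)) * t) f = _
    rw [Module.End.mul_apply, ht, map_smul]

theorem mem_congIdeal [NeZero N] (f : CuspForm (Gamma0 N) 2)
    (t : CuspForm.heckeAlgebra N 2 (∅ : Set ℕ)) :
    t ∈ congIdeal f ↔ ∃ g ∈ CuspForm.intLattice N 2,
      (t : Module.End ℂ (CuspForm (Gamma0 N) 2)) f = (3 : ℂ) • g := Iff.rfl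


section Cong

variable [NeZero N] {a : ℕ → ℤ} {f : CuspForm (Gamma0 N) 2} {af : ℕ → ℤ}

theorem three_mem_congIdeal (hf : f ∈ CuspForm.intLattice N 2) :
    ((3 : ℕ) : CuspForm.heckeAlgebra N 2 (∅ : Set ℕ)) ∈ congIdeal f := by
  refine ⟨f, hf, ?_⟩
  change ((3 : ℕ) : Module.End ℂ (CuspForm (Gamma0 N) 2)) f = _
  rw [Module.End.natCast_apply, ← Nat.cast_smul_eq_nsmul ℂ]
  norm_num

theorem one_notMem_congIdeal
    (haf : ∀ n, (af n : ℂ) = qCoeff ⇑f n) (h1 : ¬ (3 : ℤ) ∣ af 1) :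
    congIdeal f ≠ ⊤ := by
  intro htop
  have h : (1 : CuspForm.heckeAlgebra N 2 (∅ : Set ℕ)) ∈ congIdeal f := by
    rw [htop]; exact Submodule.mem_top
  obtain ⟨g, hg, hfg⟩ := h
  have hfg' : f = (3 : ℂ) • g := hfg
  obtain ⟨m, hm⟩ := (mem_intLattice_iff' g).1 hg 1
  have h2 : (af 1 : ℂ) = ((3 * m : ℤ) : ℂ) := by
    rw [haf 1, hfg', qCoeff_smulC, hm]
    push_cast
    ring
  exact h1 ⟨m, by exact_mod_cast h2⟩

theorem heckeT_sub_mem_congIdeal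
    (heig : FormalHecke.IsEigensystem
      (fun ℓ => if ℓ ∣ N then 0 else ((chiNegThree ℓ : ℤ) : ℤ)) a)
    (haf : ∀ n, (af n : ℂ) = qCoeff ⇑f n) (hcong : ∀ n, (3 : ℤ) ∣ af n - a n)
    {ℓ : ℕ} (hℓ : ℓ.Prime) (hℓN : ¬ ℓ ∣ N) :
    CuspForm.heckeAlgebra.T hℓ hℓN (Set.notMem_empty ℓ) -
      ((a ℓ : ℤ) : CuspForm.heckeAlgebra N 2 (∅ : Set ℕ)) ∈ congIdeal f := by
  -- the integer coefficients of `T_ℓ f - a ℓ • f`
  have key : ∀ n : ℕ, ∃ m : ℤ,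
      af (n * ℓ) + (if ℓ ∣ n then (ℓ : ℤ) * af (n / ℓ) else 0) - a ℓ * af n = 3 * m := by
    intro n
    have h5 := heig.2 ℓ hℓ n
    simp only [if_neg hℓN] at h5
    obtain ⟨c1, h1⟩ := hcong (n * ℓ)
    obtain ⟨c2, h2⟩ := hcong (n / ℓ)
    obtain ⟨c3, h3⟩ := hcong n
    obtain ⟨c4, h4⟩ := chi_mod_three ℓ
    rw [mul_comm ℓ n] at h5
    by_cases hd : ℓ ∣ n
    · rw [if_pos hd] at h5 ⊢
      exact ⟨c1 + ℓ * c2 - a ℓ * c3 + a (n / ℓ) * c4, by linear_combination h1 + (ℓ : ℤ) * h2 - a ℓ * h3 + a (n / ℓ) * h4 + h5⟩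
    · rw [if_neg hd] at h5 ⊢
      exact ⟨c1 - a ℓ * c3, by linear_combination h1 - a ℓ * h3 + h5⟩
  choose m hm using key
  let g₀ : CuspForm (Gamma0 N) 2 := CuspForm.heckeTLin 2 hℓ hℓN f - (a ℓ : ℂ) • f
  have hg₀ : ∀ n, qCoeff ⇑g₀ n = 3 * (m n : ℂ) := by
    intro n
    rw [qCoeff_subC, qCoeff_heckeTLin, qCoeff_smulC]
    simp only [← haf]
    have := congrArg (Int.cast : ℤ → ℂ) (hm n)
    push_cast at this
    rw [← this]
  refine ⟨(3 : ℂ)⁻¹ • g₀, ?_, ?_⟩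
  · rw [mem_intLattice_iff']
    intro n
    refine ⟨m n, ?_⟩
    rw [qCoeff_smulC, hg₀]
    field_simp
  · rw [smul_smul, mul_inv_cancel₀ (by norm_num : (3 : ℂ) ≠ 0), one_smul]
    change (CuspForm.heckeTLin 2 hℓ hℓN - ((a ℓ : ℤ) : Module.End ℂ (CuspForm (Gamma0 N) 2))) f = _
    rw [LinearMap.sub_apply, Module.End.intCast_apply, ← Int.cast_smul_eq_zsmul ℂ]

end Cong

section Normalize

variable [NeZero N]

/-- A common eigenvector of all `T_ℓ` (`ℓ ∤ N`) and `U_q` (`q ∣ N`) can be normalised to a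
normalised eigenform whose prime coefficients are the eigenvalues. -/
theorem exists_normalized (v : CuspForm (Gamma0 N) 2) (hv : v ≠ 0) (c : ℕ → ℂ)
    (hT : ∀ (ℓ : ℕ) (hℓ : ℓ.Prime) (hℓN : ¬ ℓ ∣ N), CuspForm.heckeTLin 2 hℓ hℓN v = c ℓ • v)
    (hU : ∀ (q : ℕ) (_ : q.Prime) (hqN : q ∣ N), CuspForm.heckeULin 2 hqN v = c q • v) :
    ∃ f : CuspForm (Gamma0 N) 2, f.IsNormalizedEigenform ∧
      ∀ ℓ : ℕ, ℓ.Prime → qCoeff ⇑f ℓ = c ℓ := by
  let e : ℕ → ℂ := fun ℓ => if ℓ ∣ N then 0 else (ℓ : ℂ)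
  let b : ℕ → ℂ := fun n => qCoeff ⇑v n
  have hrel : ∀ ℓ : ℕ, ℓ.Prime → ∀ n : ℕ,
      b (ℓ * n) + e ℓ * (if ℓ ∣ n then b (n / ℓ) else 0) = c ℓ * b n := by
    intro ℓ hℓ n
    by_cases hℓN : ℓ ∣ N
    · have h1 := congrArg (fun g : CuspForm (Gamma0 N) 2 => qCoeff ⇑g n) (hU ℓ hℓ hℓN)
      simp only [qCoeff_heckeULin hℓ.ne_zero, qCoeff_smulC] at h1
      simp only [e, b, if_pos hℓN, zero_mul, add_zero, mul_comm ℓ n]
      exact h1
    · have h1 := congrArg (fun g : CuspForm (Gamma0 N) 2 => qCoeff ⇑g n) (hT ℓ hℓ hℓN)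
      simp only [qCoeff_heckeTLin, qCoeff_smulC] at h1
      simp only [e, b, if_neg hℓN, mul_comm ℓ n]
      rw [← h1]
      split_ifs <;> simp
  have hb1 : b 1 ≠ 0 := by
    intro h1
    apply hv
    apply eq_zero_of_qCoeff_eq_zero
    intro n
    rcases Nat.eq_zero_or_pos n with rfl | hn
    · exact qCoeff_zero_eq v
    · exact helper49.eig_vanish hrel h1 n hn
  let f : CuspForm (Gamma0 N) 2 := (b 1)⁻¹ • v
  have hf : ∀ n, qCoeff ⇑f n = (b 1)⁻¹ * b n := fun n => qCoeff_smulC _ _ _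
  have hfℓ : ∀ ℓ : ℕ, ℓ.Prime → qCoeff ⇑f ℓ = c ℓ := by
    intro ℓ hℓ
    have h1 := hrel ℓ hℓ 1
    have hnd : ¬ ℓ ∣ 1 := fun hd => hℓ.one_lt.ne' (Nat.dvd_one.1 hd)
    rw [if_neg hnd, mul_zero, add_zero, mul_one] at h1
    rw [hf, h1]
    field_simp
  have heig : FormalHecke.IsEigensystem e (fun n => qCoeff ⇑f n) := by
    refine ⟨?_, fun ℓ hℓ n => ?_⟩
    · beta_reduce
      rw [hf]
      exact inv_mul_cancel₀ hb1
    have h1 := hrel ℓ hℓ n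
    beta_reduce
    rw [hfℓ ℓ hℓ]
    simp only [hf]
    by_cases hd : ℓ ∣ n
    · rw [if_pos hd] at h1 ⊢
      linear_combination (b 1)⁻¹ * h1
    · rw [if_neg hd] at h1 ⊢
      linear_combination (b 1)⁻¹ * h1
  have hrec := helper49.isRecursive_of_isEigensystem heig
  refine ⟨f, ⟨hrec.1, hrec.2.1, ?_, ?_⟩, hfℓ⟩
  · intro p r hp hpN
    have := hrec.2.2 p r hp
    simpa only [e, if_neg hpN] using this
  · intro p r hp hpN
    have := hrec.2.2 p r hp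
    simpa only [e, if_pos hpN, zero_mul, sub_zero] using this

end Normalize

end Fermat.Agent.S49.helper529
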