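import Mathlib
import Fermat.Prelude.Def_CuspForm_HeckeAlgebra
import Fermat.Prelude.Def_FLTPrelim_Modularity
import Fermat.Prelude.Def_FormalHecke_Eigensystem
import Fermat.Prelude.Thm_ModularFormClass_qCoeff_heckeT
import Fermat.Prelude.Thm_ModularFormClass_qCoeff_heckeU
import Fermat.Prelude.Thm_CongruenceSubgroup_one_mem_strictPeriods_Gamma0
import Fermat.Agent.S49.helper49_Formal

set_option autoImplicit false
open CuspForm CongruenceSubgroup ModularFormClass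

namespace Fermat.Agent.S49.helper19

open Fermat.Agent.S49.helper49

/-- `q`-coefficients of a scalar multiple of a cusp form. -/
theorem qCoeff_smul {N : ℕ} (c : ℂ) (v : CuspForm (Gamma0 N) 2) (n : ℕ) :
    qCoeff (⇑(c • v)) n = c * qCoeff (⇑v) n := by
  have h := ModularForm.qExpansion_smul one_pos (one_mem_strictPeriods_Gamma0 N) c v
  rw [show (⇑(c • v) : UpperHalfPlane → ℂ) = c • ⇑v from rfl]
  unfold qCoeff
  rw [h]
  simp

/-- The zeroth `q`-coefficient of a cusp form vanishes. -/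
theorem qCoeff_zero {N : ℕ} (v : CuspForm (Gamma0 N) 2) : qCoeff v 0 = 0 :=
  CuspFormClass.qExpansion_coeff_zero v one_pos (one_mem_strictPeriods_Gamma0 N)

/-- A cusp form all of whose `q`-coefficients vanish is zero. -/
theorem eq_zero_of_qCoeff_eq_zero {N : ℕ} (v : CuspForm (Gamma0 N) 2)
    (h : ∀ n : ℕ, qCoeff v n = 0) : v = 0 := by
  have hΓ := one_mem_strictPeriods_Gamma0 N
  have hq : UpperHalfPlane.qExpansion 1 v = 0 := by
    ext n
    simpa [qCoeff] using h n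
  have : Fact (IsCusp OnePoint.infty (Subgroup.map (Matrix.SpecialLinearGroup.mapGL ℝ) (Gamma0 N))) :=
    ⟨Subgroup.isCusp_of_mem_strictPeriods one_pos hΓ⟩
  have h0 : (⇑v : UpperHalfPlane → ℂ) = 0 :=
    (UpperHalfPlane.qExpansion_eq_zero_iff one_pos
      (SlashInvariantFormClass.periodic_comp_ofComplex v hΓ) (ModularFormClass.holo v)
      (ModularFormClass.bdd_at_infty v)).1 hq
  exact DFunLike.coe_injective h0

/-- `q`-coefficients of `U_ℓ v`. -/
theorem qCoeff_heckeULin {N : ℕ} [NeZero N] {ℓ : ℕ} (hℓ : ℓ.Prime) (hN : ℓ ∣ N)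
    (v : CuspForm (Gamma0 N) 2) (n : ℕ) :
    qCoeff (CuspForm.heckeULin 2 hN v) n = qCoeff v (n * ℓ) :=
  ModularFormClass.qCoeff_heckeU v (one_mem_strictPeriods_Gamma0 N) hℓ.ne_zero n

/-- `q`-coefficients of `T_ℓ v`. -/
theorem qCoeff_heckeTLin {N : ℕ} {ℓ : ℕ} (hℓ : ℓ.Prime) (hN : ¬ ℓ ∣ N)
    (v : CuspForm (Gamma0 N) 2) (n : ℕ) :
    qCoeff (CuspForm.heckeTLin 2 hℓ hN v) n =
      qCoeff v (n * ℓ) + if ℓ ∣ n then (ℓ : ℂ) * qCoeff v (n / ℓ) else 0 := by
  have h := ModularFormClass.qCoeff_heckeT (k := 2) v (one_mem_strictPeriods_Gamma0 N)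
    hℓ.ne_zero n
  rw [ModularForm.coeffHeckeT_apply] at h
  simpa using h

/-- B3: a common eigenvector of the full Hecke algebra gives a normalized eigenform. -/
theorem exists_normalized_eigenform {N : ℕ} [NeZero N] (v : CuspForm (Gamma0 N) 2) (hv : v ≠ 0)
    (χ : CuspForm.heckeAlgebra N 2 ∅ → ℂ)
    (hχ : ∀ t : CuspForm.heckeAlgebra N 2 ∅,
      (t : Module.End ℂ (CuspForm (Gamma0 N) 2)) v = χ t • v) :
    ∃ f : CuspForm (Gamma0 N) 2, f.IsNormalizedEigenform ∧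
      ∀ (ℓ : ℕ) (hℓ : ℓ.Prime) (hℓN : ¬ ℓ ∣ N),
        ModularFormClass.qCoeff f ℓ = χ (CuspForm.heckeAlgebra.T hℓ hℓN (Set.notMem_empty ℓ)) := by
  classical
  let e : ℕ → ℂ := fun ℓ => if ℓ ∣ N then 0 else (ℓ : ℂ)
  let lam : ℕ → ℂ := fun ℓ =>
    if h : ℓ.Prime then
      (if hN : ℓ ∣ N then χ (CuspForm.heckeAlgebra.U h hN (Set.notMem_empty ℓ))
       else χ (CuspForm.heckeAlgebra.T h hN (Set.notMem_empty ℓ)))
    else 0
  -- the eigen-relation for the `q`-coefficients of any scalar multiple of `v`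
  have hrel : ∀ (c : ℂ) (ℓ : ℕ), ℓ.Prime → ∀ n : ℕ,
      qCoeff (⇑(c • v)) (ℓ * n) + e ℓ * (if ℓ ∣ n then qCoeff (⇑(c • v)) (n / ℓ) else 0) =
        lam ℓ * qCoeff (⇑(c • v)) n := by
    intro c ℓ hℓ n
    by_cases hN : ℓ ∣ N
    · have h1 := hχ (CuspForm.heckeAlgebra.U hℓ hN (Set.notMem_empty ℓ))
      rw [CuspForm.heckeAlgebra.coe_U] at h1
      have h2 : qCoeff (CuspForm.heckeULin 2 hN v) n =
          χ (CuspForm.heckeAlgebra.U hℓ hN (Set.notMem_empty ℓ)) * qCoeff v n := by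
        rw [h1]; exact qCoeff_smul _ v n
      rw [qCoeff_heckeULin hℓ hN] at h2
      simp only [e, lam, dif_pos hℓ, dif_pos hN, if_pos hN, zero_mul, add_zero, qCoeff_smul]
      rw [mul_comm ℓ n, h2]
      ring
    · have h1 := hχ (CuspForm.heckeAlgebra.T hℓ hN (Set.notMem_empty ℓ))
      rw [CuspForm.heckeAlgebra.coe_T] at h1
      have h2 : qCoeff (CuspForm.heckeTLin 2 hℓ hN v) n =
          χ (CuspForm.heckeAlgebra.T hℓ hN (Set.notMem_empty ℓ)) * qCoeff v n := by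
        rw [h1]; exact qCoeff_smul _ v n
      rw [qCoeff_heckeTLin hℓ hN] at h2
      simp only [e, lam, dif_pos hℓ, dif_neg hN, if_neg hN, qCoeff_smul]
      rw [mul_comm ℓ n]
      have h3 : qCoeff v (n * ℓ) = χ (CuspForm.heckeAlgebra.T hℓ hN (Set.notMem_empty ℓ)) *
          qCoeff v n - (if ℓ ∣ n then (ℓ : ℂ) * qCoeff v (n / ℓ) else 0) := by
        rw [← h2]; ring
      rw [h3]
      split_ifs <;> ring
  -- the first coefficient of `v` is nonzero
  have hb1 : qCoeff v 1 ≠ 0 := by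
    intro h1
    apply hv
    apply eq_zero_of_qCoeff_eq_zero
    intro n
    rcases Nat.eq_zero_or_pos n with rfl | hn
    · exact qCoeff_zero v
    · have hrel1 := hrel 1
      simp only [one_smul] at hrel1
      exact eig_vanish (e := e) (lam := lam) (b := fun n => qCoeff v n) hrel1 h1 n hn
  -- normalise
  refine ⟨(qCoeff v 1)⁻¹ • v, ?_, ?_⟩
  · have ha1 : qCoeff (⇑((qCoeff v 1)⁻¹ • v)) 1 = 1 := by
      rw [qCoeff_smul, inv_mul_cancel₀ hb1]
    have hlam : ∀ ℓ : ℕ, ℓ.Prime → lam ℓ = qCoeff (⇑((qCoeff v 1)⁻¹ • v)) ℓ := by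
      intro ℓ hℓ
      have h := hrel (qCoeff v 1)⁻¹ ℓ hℓ 1
      rw [mul_one, if_neg (by simpa using hℓ.one_lt.ne'), mul_zero, add_zero, ha1, mul_one] at h
      exact h.symm
    have heig : FormalHecke.IsEigensystem e (fun n => qCoeff (⇑((qCoeff v 1)⁻¹ • v)) n) := by
      refine ⟨ha1, fun ℓ hℓ n => ?_⟩
      have h := hrel (qCoeff v 1)⁻¹ ℓ hℓ n
      rw [hlam ℓ hℓ] at h
      exact h
    obtain ⟨h1, h2, h3⟩ := isRecursive_of_isEigensystem heig
    refine ⟨h1, h2, fun p r hp hpN => ?_, fun p r hp hpN => ?_⟩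
    · have := h3 p r hp
      simpa [e, hpN] using this
    · have := h3 p r hp
      simpa [e, hpN] using this
  · intro ℓ hℓ hℓN
    have h := hrel (qCoeff v 1)⁻¹ ℓ hℓ 1
    have ha1 : qCoeff (⇑((qCoeff v 1)⁻¹ • v)) 1 = 1 := by
      rw [qCoeff_smul, inv_mul_cancel₀ hb1]
    rw [mul_one, if_neg (by simpa using hℓ.one_lt.ne'), mul_zero, add_zero, ha1, mul_one] at h
    rw [h]
    simp only [lam, dif_pos hℓ, dif_neg hℓN]

end Fermat.Agent.S49.helper19
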