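import Mathlib

set_option autoImplicit false

namespace Fermat.Agent.S49.helper2389

section CommonEigen

variable {R : Type*} [CommRing R] {V : Type*} [AddCommGroup V] [Module ℂ V]
  [FiniteDimensional ℂ V]

/-- A commuting family of endomorphisms (the image of a commutative ring) has a common
eigenvector in every nonzero stable subspace. -/
theorem exists_common_eigenvector (ρ : R →+* Module.End ℂ V) :
    ∀ (n : ℕ) (W : Submodule ℂ V), Module.finrank ℂ W = n → W ≠ ⊥ →
      (∀ r, ∀ x ∈ W, ρ r x ∈ W) →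
      ∃ v ∈ W, v ≠ 0 ∧ ∀ r, ∃ μ : ℂ, ρ r v = μ • v := by
  intro n
  induction n using Nat.strong_induction_on with
  | _ n ih =>
    intro W hn hW hstab
    by_cases hsc : ∀ r, ∃ μ : ℂ, ∀ x ∈ W, ρ r x = μ • x
    · obtain ⟨v, hvW, hv0⟩ := (Submodule.ne_bot_iff W).mp hW
      exact ⟨v, hvW, hv0, fun r => (hsc r).imp fun μ h => h v hvW⟩
    · push Not at hsc
      obtain ⟨r0, hr0⟩ := hsc
      have : Nontrivial W := Submodule.nontrivial_iff_ne_bot.mpr hW
      obtain ⟨μ0, hμ0⟩ := Module.End.exists_eigenvalue ((ρ r0).restrict (hstab r0))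
      obtain ⟨w, hw⟩ := hμ0.exists_hasEigenvector
      have hw1 : ρ r0 (w : V) = μ0 • (w : V) := by
        have := hw.apply_eq_smul
        have h2 := congrArg (Subtype.val) this
        simpa using h2
      have hw0 : (w : V) ≠ 0 := by
        intro h
        exact hw.2 (Subtype.ext h)
      let W1 : Submodule ℂ V := W ⊓ LinearMap.ker (ρ r0 - μ0 • (1 : Module.End ℂ V))
      have hW1mem : ∀ x, x ∈ W1 ↔ x ∈ W ∧ ρ r0 x = μ0 • x := by
        intro x
        simp only [W1, Submodule.mem_inf, LinearMap.mem_ker, LinearMap.sub_apply,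
          LinearMap.smul_apply, Module.End.one_apply, sub_eq_zero]
      have hW1le : W1 ≤ W := inf_le_left
      have hW1ne : W1 ≠ ⊥ := by
        intro h
        have : (w : V) ∈ W1 := (hW1mem _).2 ⟨w.2, hw1⟩
        rw [h] at this
        exact hw0 ((Submodule.mem_bot ℂ).1 this)
      have hW1lt : W1 < W := by
        refine lt_of_le_of_ne hW1le ?_
        intro h
        obtain ⟨x, hxW, hx⟩ := hr0 μ0
        have : x ∈ W1 := h ▸ hxW
        exact hx ((hW1mem x).1 this).2
      have hW1stab : ∀ r, ∀ x ∈ W1, ρ r x ∈ W1 := by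
        intro r x hx
        obtain ⟨hxW, hxe⟩ := (hW1mem x).1 hx
        refine (hW1mem _).2 ⟨hstab r x hxW, ?_⟩
        have hc : ρ r0 * ρ r = ρ r * ρ r0 := by
          rw [← map_mul, ← map_mul, mul_comm]
        have := congrArg (fun f : Module.End ℂ V => f x) hc
        simp only [Module.End.mul_apply] at this
        rw [this, hxe, map_smul]
      have hlt : Module.finrank ℂ W1 < n := by
        rw [← hn]
        exact Submodule.finrank_lt_finrank_of_lt hW1lt
      obtain ⟨v, hv, hv0, hve⟩ := ih _ hlt W1 rfl hW1ne hW1stab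
      exact ⟨v, hW1le hv, hv0, hve⟩

end CommonEigen

section Lift

variable {R : Type*} [CommRing R] {V : Type*} [AddCommGroup V] [Module ℂ V]

/-- Restriction of the action to a stable `ℤ`-lattice, as a ring homomorphism. -/
noncomputable def restrictHom (ρ : R →+* Module.End ℂ V) (L : Submodule ℤ V)
    (hstab : ∀ r, ∀ x ∈ L, ρ r x ∈ L) : R →+* Module.End ℤ L where
  toFun r := ((ρ r).restrictScalars ℤ).restrict (hstab r)
  map_one' := by ext x; simp
  map_mul' := by intro r s; ext x; simp [Module.End.mul_apply]; try rfl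
  map_zero' := by ext x; simp
  map_add' := by intro r s; ext x; simp [LinearMap.add_apply]; try rfl

theorem restrictHom_injective (ρ : R →+* Module.End ℂ V) (hinj : Function.Injective ρ)
    (L : Submodule ℤ V) (hspan : Submodule.span ℂ (L : Set V) = ⊤)
    (hstab : ∀ r, ∀ x ∈ L, ρ r x ∈ L) : Function.Injective (restrictHom ρ L hstab) := by
  intro r s hrs
  apply hinj
  apply LinearMap.ext_on hspan
  intro x hx
  exact congrArg (fun f : Module.End ℤ L => ((f ⟨x, hx⟩ : L) : V)) hrs

/-- A commutative ring acting faithfully on a complex vector space and stabilising a finitely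
generated spanning `ℤ`-lattice is integral over `ℤ`. -/
theorem isIntegral_of_lattice (ρ : R →+* Module.End ℂ V) (hinj : Function.Injective ρ)
    (L : Submodule ℤ V) (hfg : L.FG) (hspan : Submodule.span ℂ (L : Set V) = ⊤)
    (hstab : ∀ r, ∀ x ∈ L, ρ r x ∈ L) : Algebra.IsIntegral ℤ R := by
  have : Module.Finite ℤ L := Module.Finite.of_fg hfg
  have hint : Algebra.IsIntegral ℤ (Module.End ℤ L) := Module.End.isIntegral
  refine ⟨fun r => ?_⟩
  exact (isIntegral_algHom_iff (restrictHom ρ L hstab).toIntAlgHom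
    (restrictHom_injective ρ hinj L hspan hstab)).1 (hint.isIntegral _)

theorem finiteDimensional_of_lattice (L : Submodule ℤ V) (hfg : L.FG)
    (hspan : Submodule.span ℂ (L : Set V) = ⊤) : FiniteDimensional ℂ V := by
  obtain ⟨S, hS⟩ := hfg
  refine Module.finite_def.2 ⟨S, ?_⟩
  rw [← hspan, ← hS, Submodule.span_span_of_tower]

/-- **Abstract lifting lemma (Deligne--Serre).**  Let a commutative ring `R` act faithfully on a
complex vector space `V`, stabilising a finitely generated `ℤ`-lattice which spans `V`.  For every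
proper ideal `I` of `R` there are a common eigenvector `v`, whose eigencharacter `χ` takes values
in the algebraic integers, and a maximal ideal of the algebraic integers containing `χ(I)`. -/
theorem exists_eigen_lift (ρ : R →+* Module.End ℂ V) (hinj : Function.Injective ρ)
    (L : Submodule ℤ V) (hfg : L.FG) (hspan : Submodule.span ℂ (L : Set V) = ⊤)
    (hstab : ∀ r, ∀ x ∈ L, ρ r x ∈ L) (I : Ideal R) (hI : I ≠ ⊤) :
    ∃ (v : V) (χ : R →+* integralClosure ℤ ℂ) (𝔪' : Ideal (integralClosure ℤ ℂ)),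
      v ≠ 0 ∧ 𝔪'.IsMaximal ∧ (∀ r, ρ r v = ((χ r : integralClosure ℤ ℂ) : ℂ) • v) ∧
        ∀ r ∈ I, χ r ∈ 𝔪' := by
  have hfd : FiniteDimensional ℂ V := finiteDimensional_of_lattice L hfg hspan
  have hRint : Algebra.IsIntegral ℤ R := isIntegral_of_lattice ρ hinj L hfg hspan hstab
  obtain ⟨𝔪, h𝔪max, hI𝔪⟩ := Ideal.exists_le_maximal I hI
  have h𝔪prime : 𝔪.IsPrime := h𝔪max.isPrime
  have h1 : (1 : R) ∉ 𝔪 := (Ideal.ne_top_iff_one 𝔪).1 h𝔪max.ne_top
  -- choose `s0 ∉ 𝔪` with kernel of maximal dimension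
  have hex : ∃ d : ℕ, ∃ s : R, s ∉ 𝔪 ∧
      Module.finrank ℂ V - Module.finrank ℂ (LinearMap.ker (ρ s)) = d := ⟨_, 1, h1, rfl⟩
  classical
  obtain ⟨s0, hs0, hd0⟩ := Nat.find_spec hex
  have hmax : ∀ s : R, s ∉ 𝔪 →
      Module.finrank ℂ (LinearMap.ker (ρ s)) ≤ Module.finrank ℂ (LinearMap.ker (ρ s0)) := by
    intro s hs
    have h1 := Nat.find_min' hex ⟨s, hs, rfl⟩
    have h2 : Module.finrank ℂ (LinearMap.ker (ρ s)) ≤ Module.finrank ℂ V :=
      Submodule.finrank_le _
    have h3 : Module.finrank ℂ (LinearMap.ker (ρ s0)) ≤ Module.finrank ℂ V :=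
      Submodule.finrank_le _
    omega
  have hkey : ∀ t : R, t ∉ 𝔪 → ∀ u : V, ρ t (ρ s0 u) = 0 → ρ s0 u = 0 := by
    intro t ht u hu
    have hts : t * s0 ∉ 𝔪 := fun h => (h𝔪prime.mem_or_mem h).elim ht hs0
    have hle : LinearMap.ker (ρ s0) ≤ LinearMap.ker (ρ (t * s0)) := by
      intro x hx
      rw [LinearMap.mem_ker] at hx ⊢
      rw [map_mul, Module.End.mul_apply, hx, map_zero]
    have heq : LinearMap.ker (ρ s0) = LinearMap.ker (ρ (t * s0)) :=
      Submodule.eq_of_le_of_finrank_le hle (hmax _ hts)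
    have : u ∈ LinearMap.ker (ρ (t * s0)) := by
      rw [LinearMap.mem_ker, map_mul, Module.End.mul_apply, hu]
    rw [← heq] at this
    exact this
  -- a common eigenvector in the range of `ρ s0`
  have hWne : LinearMap.range (ρ s0) ≠ ⊥ := by
    intro h
    rw [LinearMap.range_eq_bot] at h
    have : s0 = 0 := hinj (by rw [h, map_zero])
    exact hs0 (this ▸ 𝔪.zero_mem)
  have hWstab : ∀ r, ∀ x ∈ LinearMap.range (ρ s0), ρ r x ∈ LinearMap.range (ρ s0) := by
    rintro r x ⟨u, rfl⟩
    refine ⟨ρ r u, ?_⟩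
    have hc : ρ s0 * ρ r = ρ r * ρ s0 := by rw [← map_mul, ← map_mul, mul_comm]
    have := congrArg (fun f : Module.End ℂ V => f u) hc
    simpa only [Module.End.mul_apply] using this
  obtain ⟨v, hvW, hv0, hev⟩ := exists_common_eigenvector ρ _ _ rfl hWne hWstab
  obtain ⟨u, rfl⟩ := hvW
  choose χ0 hχ0 using hev
  have hu : ∀ a b : ℂ, a • ρ s0 u = b • ρ s0 u → a = b := fun a b h =>
    smul_left_injective ℂ hv0 h
  let χ : R →+* ℂ :=
    { toFun := χ0
      map_one' := hu _ _ (by rw [← hχ0, map_one, one_smul, Module.End.one_apply])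
      map_mul' := fun r s => hu _ _ (by
        rw [← hχ0, map_mul, Module.End.mul_apply, hχ0 s, map_smul, hχ0 r, smul_smul, mul_comm])
      map_zero' := hu _ _ (by rw [← hχ0, map_zero, zero_smul, LinearMap.zero_apply])
      map_add' := fun r s => hu _ _ (by
        rw [← hχ0, map_add, LinearMap.add_apply, hχ0 r, hχ0 s, add_smul]) }
  have hχint : ∀ r, χ r ∈ integralClosure ℤ ℂ := fun r =>
    (hRint.isIntegral r).map χ.toIntAlgHom
  let χ' : R →+* integralClosure ℤ ℂ := χ.codRestrict (integralClosure ℤ ℂ) hχint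
  have hχ' : ∀ r, ((χ' r : integralClosure ℤ ℂ) : ℂ) = χ0 r := fun r => rfl
  have hker : RingHom.ker χ' ≤ 𝔪 := by
    intro r hr
    by_contra hr𝔪
    have h0 : χ0 r = 0 := by
      rw [← hχ' r, (RingHom.mem_ker).1 hr]; rfl
    have : ρ r (ρ s0 u) = 0 := by rw [hχ0 r, h0, zero_smul]
    exact hv0 (hkey r hr𝔪 u this)
  let _ : Algebra R (integralClosure ℤ ℂ) := χ'.toAlgebra
  have htower : IsScalarTower ℤ R (integralClosure ℤ ℂ) :=
    IsScalarTower.of_algebraMap_eq (fun n => by
      rw [RingHom.algebraMap_toAlgebra]; simp)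
  have hint : Algebra.IsIntegral R (integralClosure ℤ ℂ) :=
    ⟨fun z => (Algebra.IsIntegral.isIntegral (R := ℤ) z).tower_top⟩
  obtain ⟨Q, hQmax, hQ⟩ := Ideal.exists_ideal_over_maximal_of_isIntegral
    (S := integralClosure ℤ ℂ) 𝔪 hker
  refine ⟨ρ s0 u, χ', Q, hv0, hQmax, fun r => by rw [hχ' r]; exact hχ0 r, fun r hr => ?_⟩
  have : r ∈ Ideal.comap (algebraMap R (integralClosure ℤ ℂ)) Q := by
    rw [hQ]; exact hI𝔪 hr
  exact this

end Lift

end Fermat.Agent.S49.helper2389
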