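import Mathlib

set_option autoImplicit false
set_option linter.style.haveILetI false

namespace Fermat.Agent.S49.helper1129

/-- A commutative algebra `B` acting faithfully on a finite-dimensional vector space `V` over an
algebraically closed field: every minimal prime `P` of `B` is the annihilator of a simultaneous
eigenvector. -/
theorem exists_common_eigenvector_of_minimalPrime
    {K : Type*} [Field K] [IsAlgClosed K] {V : Type*} [AddCommGroup V] [Module K V]
    [FiniteDimensional K V] {B : Type*} [CommRing B] [Algebra K B]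
    (φ : B →ₐ[K] Module.End K V) (hφ : Function.Injective φ)
    (P : Ideal B) (hP : P ∈ (⊥ : Ideal B).minimalPrimes) :
    ∃ v : V, v ≠ 0 ∧ (∀ b : B, ∃ c : K, φ b v = c • v) ∧ (∀ b : B, φ b v = 0 → b ∈ P) := by
  classical
  letI : Module B V := Module.compHom V φ.toRingHom
  have hsmul : ∀ (b : B) (v : V), b • v = φ b v := fun b v => rfl
  haveI : IsScalarTower K B V := ⟨fun k b v => by
    rw [hsmul, hsmul, map_smul, LinearMap.smul_apply]⟩
  haveI : Module.Finite K B := Module.Finite.of_injective φ.toLinearMap hφ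
  haveI : IsNoetherianRing B := IsNoetherianRing.of_finite K B
  haveI : Module.Finite B V := Module.Finite.of_restrictScalars_finite K B V
  have hann : Module.annihilator B V = ⊥ := by
    rw [eq_bot_iff]
    intro b hb
    rw [Module.mem_annihilator] at hb
    have h0 : φ b = 0 := LinearMap.ext fun v => hb v
    have : b = 0 := hφ (h0.trans (map_zero φ).symm)
    simp [this]
  have hP' : P ∈ (Module.annihilator B V).minimalPrimes := by rw [hann]; exact hP
  have hass := Module.associatedPrimes.minimalPrimes_annihilator_subset_associatedPrimes B V hP'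
  obtain ⟨hprime, x, hx⟩ := (isAssociatedPrime_iff).mp hass
  haveI := hprime
  have hmem : ∀ b : B, b ∈ P ↔ φ b x = 0 := by
    intro b
    rw [hx, Submodule.mem_colon_singleton, Submodule.mem_bot, hsmul]
  haveI : Algebra.IsIntegral K (B ⧸ P) := Algebra.IsIntegral.of_finite K (B ⧸ P)
  have hbij := IsAlgClosed.algebraMap_bijective_of_isIntegral (k := K) (K := B ⧸ P)
  refine ⟨x, ?_, ?_, ?_⟩
  · rintro rfl
    apply hprime.ne_top
    rw [Ideal.eq_top_iff_one, hmem]
    simp
  · intro b
    obtain ⟨c, hc⟩ := hbij.2 (Ideal.Quotient.mk P b)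
    refine ⟨c, ?_⟩
    have h1 : b - algebraMap K B c ∈ P := by
      rw [← Ideal.Quotient.eq]
      exact hc.symm
    rw [hmem, map_sub, LinearMap.sub_apply, sub_eq_zero] at h1
    rw [h1, AlgHom.commutes]
    rfl
  · intro b hb
    exact (hmem b).mpr hb


open scoped IsMulCommutative in
/-- A commutative ring `T` acting on a finite-dimensional vector space over an algebraically
closed field, and a prime ideal `I` of `T` containing the kernel of the action: there is a
simultaneous eigenvector whose eigencharacter has kernel inside `I`. -/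
theorem exists_eigencharacter_ker_le
    {K : Type*} [Field K] [IsAlgClosed K] {T : Type*} [CommRing T] {V : Type*} [AddCommGroup V]
    [Module K V] [FiniteDimensional K V]
    (ρ : T →+* Module.End K V) (I : Ideal T) [hIp : I.IsPrime] (hI : RingHom.ker ρ ≤ I) :
    ∃ (v : V) (χ : T →+* K), v ≠ 0 ∧ (∀ t, ρ t v = χ t • v) ∧ RingHom.ker χ ≤ I := by
  classical
  have hcomm : ∀ x ∈ Set.range ρ, ∀ y ∈ Set.range ρ, x * y = y * x := by
    rintro _ ⟨s, rfl⟩ _ ⟨t, rfl⟩
    rw [← map_mul, ← map_mul, mul_comm]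
  let B : Subalgebra K (Module.End K V) := Algebra.adjoin K (Set.range ρ)
  haveI : IsMulCommutative B := Algebra.isMulCommutative_adjoin K hcomm
  let S : Submonoid B :=
    { carrier := {b | ∃ t, t ∉ I ∧ ρ t = (b : Module.End K V)}
      one_mem' := ⟨1, fun h => hIp.ne_top ((Ideal.eq_top_iff_one I).mpr h), by simp⟩
      mul_mem' := by
        rintro a b ⟨s, hs, hsa⟩ ⟨t, ht, htb⟩
        exact ⟨s * t, fun h => (hIp.mem_or_mem h).elim hs ht, by simp [hsa, htb]⟩ }
  have hdisj : Disjoint ((⊥ : Ideal B) : Set B) (S : Set B) := by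
    rw [Set.disjoint_left]
    rintro b hb ⟨t, ht, htb⟩
    have hb0 : b = 0 := by simpa using hb
    apply ht
    apply hI
    rw [RingHom.mem_ker, htb, hb0]
    rfl
  obtain ⟨P₀, hP₀, -, hP₀S⟩ := Ideal.exists_le_prime_disjoint ⊥ S hdisj
  obtain ⟨P, hP, hPP₀⟩ := Ideal.exists_minimalPrimes_le (bot_le : (⊥ : Ideal B) ≤ P₀)
  obtain ⟨v, hv, hev, hker⟩ :=
    exists_common_eigenvector_of_minimalPrime B.val Subtype.val_injective P hP
  have hev' : ∀ t : T, ∃ c : K, ρ t v = c • v := fun t =>
    hev ⟨ρ t, Algebra.subset_adjoin ⟨t, rfl⟩⟩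
  choose χ hχ using hev'
  have huniq : ∀ {c c' : K}, c • v = c' • v → c = c' := fun h => smul_left_injective K hv h
  refine ⟨v, { toFun := χ, map_one' := ?_, map_mul' := ?_, map_zero' := ?_, map_add' := ?_ },
    hv, hχ, ?_⟩
  · apply huniq
    rw [← hχ, map_one, one_smul]
    rfl
  · intro s t
    apply huniq
    rw [← hχ, map_mul, Module.End.mul_apply, hχ t, map_smul, hχ s, smul_smul, mul_comm]
  · apply huniq
    rw [← hχ, map_zero, zero_smul]
    rfl
  · intro s t
    apply huniq
    rw [← hχ, map_add, LinearMap.add_apply, hχ s, hχ t, add_smul]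
  · intro t ht
    by_contra htI
    have h0 : ρ t v = 0 := by
      have := hχ t
      rw [RingHom.mem_ker] at ht
      change χ t = 0 at ht
      rw [this, ht, zero_smul]
    have hmemP : (⟨ρ t, Algebra.subset_adjoin ⟨t, rfl⟩⟩ : B) ∈ P := hker _ h0
    exact Set.disjoint_left.mp hP₀S (hPP₀ hmemP) ⟨t, htI, rfl⟩


/-- An eigenvalue of a `ℂ`-linear endomorphism that stabilises a finitely generated `ℤ`-lattice
spanning the space is an algebraic integer. -/
theorem isIntegral_eigenvalue_of_lattice {V : Type*} [AddCommGroup V] [Module ℂ V]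
    (L : Submodule ℤ V) (hfg : L.FG) (hspan : Submodule.span ℂ (L : Set V) = ⊤)
    (f : Module.End ℂ V) (hf : ∀ x ∈ L, f x ∈ L) {v : V} (hv : v ≠ 0) {c : ℂ}
    (hc : f v = c • v) : IsIntegral ℤ c := by
  classical
  haveI : Module.Finite ℤ L := Module.Finite.iff_fg.mpr hfg
  let g : Module.End ℤ L := (f.restrictScalars ℤ).restrict hf
  have hg : ∀ x : L, ((g x : L) : V) = f (x : V) := fun x => rfl
  obtain ⟨p, hpm, hp⟩ := LinearMap.exists_monic_and_aeval_eq_zero ℤ g
  have key : ∀ q : Polynomial ℤ, ∀ x : L,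
      (Polynomial.aeval f q) (x : V) = ((Polynomial.aeval g q) x : V) := by
    intro q
    induction q using Polynomial.induction_on with
    | C a =>
      intro x
      simp
    | add p q hp hq =>
      intro x
      simp [hp, hq]
    | monomial n a ih =>
      intro x
      have e1 : Polynomial.aeval f (Polynomial.C a * Polynomial.X ^ (n + 1)) =
          Polynomial.aeval f (Polynomial.C a * Polynomial.X ^ n) * f := by
        rw [pow_succ, ← mul_assoc, map_mul (Polynomial.aeval f) _ Polynomial.X, Polynomial.aeval_X]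
      have e2 : Polynomial.aeval g (Polynomial.C a * Polynomial.X ^ (n + 1)) =
          Polynomial.aeval g (Polynomial.C a * Polynomial.X ^ n) * g := by
        rw [pow_succ, ← mul_assoc, map_mul (Polynomial.aeval g) _ Polynomial.X, Polynomial.aeval_X]
      rw [e1, e2, Module.End.mul_apply, Module.End.mul_apply, ← hg x]
      exact ih (g x)
  have hzero : Polynomial.aeval f p = 0 := by
    apply LinearMap.ext_on hspan
    intro x hx
    rw [key p ⟨x, hx⟩, hp]
    simp
  have hev : Module.End.HasEigenvector f c v := ⟨Module.End.mem_eigenspace_iff.mpr hc, hv⟩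
  have h2 := Module.End.aeval_apply_of_hasEigenvector (p := p.map (algebraMap ℤ ℂ)) hev
  rw [Polynomial.aeval_map_algebraMap, hzero, LinearMap.zero_apply] at h2
  have h3 : (p.map (algebraMap ℤ ℂ)).eval c = 0 :=
    (smul_eq_zero.mp h2.symm).resolve_right hv
  exact ⟨p, hpm, by rwa [Polynomial.eval_map] at h3⟩


/-- Lying over for a ring hom into the ring of algebraic integers. -/
theorem exists_maximal_ideal_over {T : Type*} [CommRing T] (χ : T →+* integralClosure ℤ ℂ)
    (I : Ideal T) [I.IsMaximal] (hI : RingHom.ker χ ≤ I) :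
    ∃ 𝔪' : Ideal (integralClosure ℤ ℂ), 𝔪'.IsMaximal ∧ ∀ t ∈ I, χ t ∈ 𝔪' := by
  letI : Algebra T (integralClosure ℤ ℂ) := χ.toAlgebra
  haveI : Algebra.IsIntegral T (integralClosure ℤ ℂ) :=
    ⟨fun z => (Algebra.IsIntegral.isIntegral (R := ℤ) z).tower_top⟩
  obtain ⟨Q, hQ, hQI⟩ :=
    Ideal.exists_ideal_over_maximal_of_isIntegral (S := integralClosure ℤ ℂ) I hI
  refine ⟨Q, hQ, fun t ht => ?_⟩
  have h1 : t ∈ Q.comap (algebraMap T (integralClosure ℤ ℂ)) := hQI ▸ ht
  exact h1

/-- Abstract Deligne–Serre lifting: a commutative ring `T` acting on a complex vector space `V`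
stabilising a finitely generated `ℤ`-lattice that spans `V`, and a maximal ideal `I` of `T`
containing the kernel of the action.  Then there is a simultaneous eigenvector whose
eigencharacter takes values in the algebraic integers and maps `I` into a maximal ideal. -/
theorem exists_eigen_lift {T : Type*} [CommRing T] {V : Type*} [AddCommGroup V] [Module ℂ V]
    (ρ : T →+* Module.End ℂ V) (L : Submodule ℤ V) (hfg : L.FG)
    (hspan : Submodule.span ℂ (L : Set V) = ⊤) (hstab : ∀ t, ∀ x ∈ L, ρ t x ∈ L)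
    (I : Ideal T) [hImax : I.IsMaximal] (hI : RingHom.ker ρ ≤ I) :
    ∃ (v : V) (χ : T →+* integralClosure ℤ ℂ) (𝔪' : Ideal (integralClosure ℤ ℂ)),
      v ≠ 0 ∧ (∀ t, ρ t v = (χ t : ℂ) • v) ∧ 𝔪'.IsMaximal ∧ ∀ t ∈ I, χ t ∈ 𝔪' := by
  haveI : FiniteDimensional ℂ V := by
    obtain ⟨s, hs⟩ := hfg
    refine Module.finite_def.mpr ⟨s, ?_⟩
    rw [← hspan, ← hs, Submodule.span_span_of_tower]
  haveI : I.IsPrime := hImax.isPrime
  obtain ⟨v, χ₀, hv, hχ₀, hker⟩ := exists_eigencharacter_ker_le ρ I hI
  have hint : ∀ t, IsIntegral ℤ (χ₀ t) := fun t =>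
    isIntegral_eigenvalue_of_lattice L hfg hspan (ρ t) (hstab t) hv (hχ₀ t)
  let χ : T →+* integralClosure ℤ ℂ :=
    { toFun := fun t => ⟨χ₀ t, hint t⟩
      map_one' := Subtype.ext (map_one χ₀)
      map_mul' := fun s t => Subtype.ext (map_mul χ₀ s t)
      map_zero' := Subtype.ext (map_zero χ₀)
      map_add' := fun s t => Subtype.ext (map_add χ₀ s t) }
  have hker' : RingHom.ker χ ≤ I := fun t ht => hker (by
    rw [RingHom.mem_ker] at ht ⊢
    exact congrArg Subtype.val ht)
  obtain ⟨𝔪', h𝔪', hmem⟩ := exists_maximal_ideal_over χ I hker'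
  exact ⟨v, χ, 𝔪', hv, fun t => hχ₀ t, h𝔪', hmem⟩

end Fermat.Agent.S49.helper1129
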