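import Mathlib
import Fermat.Prelude.Def_FLTPrelim_Modularity
import Fermat.Prelude.Def_FormalHecke_Eigensystem
import Fermat.Prelude.Def_CuspForm_HeckeAlgebra
import Fermat.Prelude.Thm_CuspForm_intLattice_fg
import Fermat.Prelude.Thm_ModularFormClass_qCoeff_heckeT
import Fermat.Prelude.Thm_ModularFormClass_qCoeff_heckeU
import Fermat.Prelude.Thm_CongruenceSubgroup_one_mem_strictPeriods_Gamma0
import Fermat.Agent.S49.helper49_Formal

/-!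
# Common Hecke eigenvectors are (multiples of) normalised eigenforms

`v ≠ 0` in `S_k(Γ₀(N))` with `T_ℓ v = lam ℓ • v` (`ℓ ∤ N`) and `U_q v = lam q • v` (`q ∣ N`):
* the `q`-coefficients of `v` satisfy the formal Hecke relations (`qCoeff_eigen_rel`);
* `a_1(v) ≠ 0` (`qCoeff_one_ne_zero_of_eigenvector`);
* for `k = 2`, `f := a_1(v)⁻¹ • v` is a `CuspForm.IsNormalizedEigenform` with `a_ℓ(f) = lam ℓ`
  (`exists_normalizedEigenform_of_eigenvector`, and the Hecke-algebra form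
  `exists_normalized_eigenform`).
-/

set_option autoImplicit false
open CuspForm CongruenceSubgroup ModularFormClass

namespace Fermat.Agent.S49.helper589

open Fermat.Agent.S49.helper49

variable {N : ℕ}

/-- `q`-coefficients of a complex multiple of a cusp form on `Γ₀(N)`. -/
theorem qCoeff_smul {k : ℤ} (c : ℂ) (f : CuspForm (Gamma0 N) k) (n : ℕ) :
    qCoeff (⇑(c • f)) n = c * qCoeff (⇑f) n := by
  have h := ModularForm.qExpansion_smul (k := k) one_pos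
    (CongruenceSubgroup.one_mem_strictPeriods_Gamma0 N) c f
  have hc : (⇑(c • f) : UpperHalfPlane → ℂ) = c • ⇑f := rfl
  simp only [qCoeff, hc, h, PowerSeries.coeff_smul, smul_eq_mul]

/-- The weight-`k` "Euler factor" function: `ℓ^(k-1)` off the level, `0` on the level. -/
noncomputable def eul (N : ℕ) (k : ℤ) (ℓ : ℕ) : ℂ := if ℓ ∣ N then 0 else (ℓ : ℂ) ^ (k - 1)

/-- The formal Hecke relations satisfied by the `q`-coefficients of a common eigenvector of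
all `T_ℓ` (`ℓ ∤ N`) and `U_q` (`q ∣ N`). -/
theorem qCoeff_eigen_rel [NeZero N] {k : ℤ} (v : CuspForm (Gamma0 N) k) (lam : ℕ → ℂ)
    (hT : ∀ (ℓ : ℕ) (hℓ : ℓ.Prime) (hℓN : ¬ ℓ ∣ N), CuspForm.heckeTLin k hℓ hℓN v = lam ℓ • v)
    (hU : ∀ (q : ℕ) (_ : q.Prime) (hqN : q ∣ N), CuspForm.heckeULin k hqN v = lam q • v)
    (ℓ : ℕ) (hℓ : ℓ.Prime) (n : ℕ) :
    qCoeff (⇑v) (ℓ * n) + eul N k ℓ * (if ℓ ∣ n then qCoeff (⇑v) (n / ℓ) else 0) =
      lam ℓ * qCoeff (⇑v) n := by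
  have hΓ := CongruenceSubgroup.one_mem_strictPeriods_Gamma0 N
  by_cases hℓN : ℓ ∣ N
  · have h1 := congrArg (fun g : CuspForm (Gamma0 N) k => qCoeff (⇑g) n) (hU ℓ hℓ hℓN)
    simp only [CuspForm.coe_heckeULin_apply, qCoeff_smul] at h1
    rw [ModularFormClass.qCoeff_heckeU v hΓ hℓ.ne_zero n, ModularForm.coeffHeckeU_apply] at h1
    rw [eul, if_pos hℓN, zero_mul, add_zero, mul_comm ℓ n]
    exact h1
  · have h1 := congrArg (fun g : CuspForm (Gamma0 N) k => qCoeff (⇑g) n) (hT ℓ hℓ hℓN)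
    simp only [CuspForm.coe_heckeTLin_apply, qCoeff_smul] at h1
    rw [ModularFormClass.qCoeff_heckeT v hΓ hℓ.ne_zero n, ModularForm.coeffHeckeT_apply] at h1
    rw [eul, if_neg hℓN, mul_comm ℓ n, ← h1]
    split_ifs <;> simp

/-- A cusp form on `Γ₀(N)` all of whose `q`-coefficients of positive index vanish is zero. -/
theorem eq_zero_of_forall_qCoeff_eq_zero [NeZero N] {k : ℤ} (v : CuspForm (Gamma0 N) k)
    (h : ∀ n : ℕ, 1 ≤ n → qCoeff (⇑v) n = 0) : v = 0 := by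
  apply P2MW.S_CuspForm_intLattice_fg.W3WsD.trunc_injective N k
  rw [map_zero]
  funext i
  show qCoeff (⇑v) (i : ℕ) = 0
  rcases Nat.eq_zero_or_pos (i : ℕ) with h0 | h0
  · rw [h0]
    exact CuspFormClass.qExpansion_coeff_zero v one_pos
      (CongruenceSubgroup.one_mem_strictPeriods_Gamma0 N)
  · exact h _ h0

/-- The first `q`-coefficient of a nonzero common Hecke eigenvector is nonzero. -/
theorem qCoeff_one_ne_zero_of_eigenvector [NeZero N] {k : ℤ} (v : CuspForm (Gamma0 N) k)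
    (hv : v ≠ 0) (lam : ℕ → ℂ)
    (hT : ∀ (ℓ : ℕ) (hℓ : ℓ.Prime) (hℓN : ¬ ℓ ∣ N), CuspForm.heckeTLin k hℓ hℓN v = lam ℓ • v)
    (hU : ∀ (q : ℕ) (_ : q.Prime) (hqN : q ∣ N), CuspForm.heckeULin k hqN v = lam q • v) :
    qCoeff (⇑v) 1 ≠ 0 := by
  intro h1
  exact hv (eq_zero_of_forall_qCoeff_eq_zero v
    (eig_vanish (e := eul N k) (lam := lam) (b := fun n => qCoeff (⇑v) n)
      (fun ℓ hℓ n => qCoeff_eigen_rel v lam hT hU ℓ hℓ n) h1))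

/-- The normalisation of a nonzero common Hecke eigenvector has `q`-coefficients forming a
formal Hecke eigensystem (for the Euler factors `eul N k`), with `a_ℓ = lam ℓ` at primes. -/
theorem isEigensystem_qCoeff_of_eigenvector [NeZero N] {k : ℤ} (v : CuspForm (Gamma0 N) k)
    (hv : v ≠ 0) (lam : ℕ → ℂ)
    (hT : ∀ (ℓ : ℕ) (hℓ : ℓ.Prime) (hℓN : ¬ ℓ ∣ N), CuspForm.heckeTLin k hℓ hℓN v = lam ℓ • v)
    (hU : ∀ (q : ℕ) (_ : q.Prime) (hqN : q ∣ N), CuspForm.heckeULin k hqN v = lam q • v) :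
    FormalHecke.IsEigensystem (eul N k)
        (fun n => qCoeff (⇑((qCoeff (⇑v) 1)⁻¹ • v)) n) ∧
      ∀ ℓ : ℕ, ℓ.Prime → qCoeff (⇑((qCoeff (⇑v) 1)⁻¹ • v)) ℓ = lam ℓ := by
  have h1 := qCoeff_one_ne_zero_of_eigenvector v hv lam hT hU
  have hrel : ∀ ℓ : ℕ, ℓ.Prime → ∀ n : ℕ,
      qCoeff (⇑((qCoeff (⇑v) 1)⁻¹ • v)) (ℓ * n) + eul N k ℓ *
        (if ℓ ∣ n then qCoeff (⇑((qCoeff (⇑v) 1)⁻¹ • v)) (n / ℓ) else 0) =
      lam ℓ * qCoeff (⇑((qCoeff (⇑v) 1)⁻¹ • v)) n := by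
    intro ℓ hℓ n
    have h2 := qCoeff_eigen_rel v lam hT hU ℓ hℓ n
    simp only [qCoeff_smul]
    split_ifs at h2 ⊢ with hd
    · linear_combination (qCoeff (⇑v) 1)⁻¹ * h2
    · linear_combination (qCoeff (⇑v) 1)⁻¹ * h2
  have hone : qCoeff (⇑((qCoeff (⇑v) 1)⁻¹ • v)) 1 = 1 := by
    rw [qCoeff_smul, inv_mul_cancel₀ h1]
  have hlam : ∀ ℓ : ℕ, ℓ.Prime → qCoeff (⇑((qCoeff (⇑v) 1)⁻¹ • v)) ℓ = lam ℓ := by
    intro ℓ hℓ
    have h2 := hrel ℓ hℓ 1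
    rw [if_neg (fun h => hℓ.one_lt.ne' (Nat.dvd_one.1 h)), mul_zero, add_zero, mul_one, hone,
      mul_one] at h2
    exact h2
  refine ⟨⟨hone, fun ℓ hℓ n => ?_⟩, hlam⟩
  show qCoeff (⇑((qCoeff (⇑v) 1)⁻¹ • v)) (ℓ * n) + eul N k ℓ *
        (if ℓ ∣ n then qCoeff (⇑((qCoeff (⇑v) 1)⁻¹ • v)) (n / ℓ) else 0) =
      qCoeff (⇑((qCoeff (⇑v) 1)⁻¹ • v)) ℓ * qCoeff (⇑((qCoeff (⇑v) 1)⁻¹ • v)) n
  rw [hlam ℓ hℓ]
  exact hrel ℓ hℓ n

/-- **Eigenvector ⇒ normalised eigenform** (weight 2, level `Γ₀(N)`): a nonzero common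
eigenvector `v` of all `T_ℓ` (`ℓ ∤ N`) and all `U_q` (`q ∣ N`) has `a_1(v) ≠ 0`, and
`a_1(v)⁻¹ • v` is a normalised eigenform whose prime coefficients are the eigenvalues. -/
theorem exists_normalizedEigenform_of_eigenvector [NeZero N] (v : CuspForm (Gamma0 N) 2)
    (hv : v ≠ 0) (lam : ℕ → ℂ)
    (hT : ∀ (ℓ : ℕ) (hℓ : ℓ.Prime) (hℓN : ¬ ℓ ∣ N), CuspForm.heckeTLin 2 hℓ hℓN v = lam ℓ • v)
    (hU : ∀ (q : ℕ) (_ : q.Prime) (hqN : q ∣ N), CuspForm.heckeULin 2 hqN v = lam q • v) :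
    ∃ f : CuspForm (Gamma0 N) 2, f.IsNormalizedEigenform ∧
      (∀ ℓ : ℕ, ℓ.Prime → qCoeff (⇑f) ℓ = lam ℓ) ∧ ∃ c : ℂ, c ≠ 0 ∧ f = c • v := by
  obtain ⟨heig, hlam⟩ := isEigensystem_qCoeff_of_eigenvector v hv lam hT hU
  have hrec := isRecursive_of_isEigensystem heig
  refine ⟨(qCoeff (⇑v) 1)⁻¹ • v, ⟨hrec.1, hrec.2.1, ?_, ?_⟩, hlam, (qCoeff (⇑v) 1)⁻¹,
    inv_ne_zero (qCoeff_one_ne_zero_of_eigenvector v hv lam hT hU), rfl⟩
  · intro p r hp hpN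
    have h := hrec.2.2 p r hp
    simp only [eul, if_neg hpN] at h
    rw [h]
    norm_num
  · intro p r hp hpN
    have h := hrec.2.2 p r hp
    simp only [eul, if_pos hpN, zero_mul, sub_zero] at h
    exact h

/-- Hecke-algebra form: a common eigenvector of the full Hecke algebra `heckeAlgebra N 2 ∅`
gives a normalised eigenform with `a_ℓ = χ(T_ℓ)` for `ℓ ∤ N` (and `a_q = χ(U_q)` for `q ∣ N`). -/
theorem exists_normalized_eigenform [NeZero N] (v : CuspForm (Gamma0 N) 2) (hv : v ≠ 0)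
    (χ : CuspForm.heckeAlgebra N 2 ∅ → ℂ)
    (hχ : ∀ t : CuspForm.heckeAlgebra N 2 ∅,
      (t : Module.End ℂ (CuspForm (Gamma0 N) 2)) v = χ t • v) :
    ∃ f : CuspForm (Gamma0 N) 2, f.IsNormalizedEigenform ∧
      (∀ (ℓ : ℕ) (hℓ : ℓ.Prime) (hℓN : ¬ ℓ ∣ N),
        qCoeff (⇑f) ℓ = χ (CuspForm.heckeAlgebra.T hℓ hℓN (Set.notMem_empty ℓ))) ∧
      (∀ (q : ℕ) (hq : q.Prime) (hqN : q ∣ N),
        qCoeff (⇑f) q = χ (CuspForm.heckeAlgebra.U hq hqN (Set.notMem_empty q))) := by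
  classical
  let lam : ℕ → ℂ := fun ℓ =>
    if hℓ : ℓ.Prime then
      if hℓN : ℓ ∣ N then χ (CuspForm.heckeAlgebra.U hℓ hℓN (Set.notMem_empty ℓ))
      else χ (CuspForm.heckeAlgebra.T hℓ hℓN (Set.notMem_empty ℓ))
    else 0
  have hT : ∀ (ℓ : ℕ) (hℓ : ℓ.Prime) (hℓN : ¬ ℓ ∣ N),
      CuspForm.heckeTLin 2 hℓ hℓN v = lam ℓ • v := by
    intro ℓ hℓ hℓN
    have h := hχ (CuspForm.heckeAlgebra.T hℓ hℓN (Set.notMem_empty ℓ))
    rw [CuspForm.heckeAlgebra.coe_T] at h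
    simp only [lam, dif_pos hℓ, dif_neg hℓN]
    exact h
  have hU : ∀ (q : ℕ) (_ : q.Prime) (hqN : q ∣ N), CuspForm.heckeULin 2 hqN v = lam q • v := by
    intro q hq hqN
    have h := hχ (CuspForm.heckeAlgebra.U hq hqN (Set.notMem_empty q))
    rw [CuspForm.heckeAlgebra.coe_U] at h
    simp only [lam, dif_pos hq, dif_pos hqN]
    exact h
  obtain ⟨f, hf, hfl, -⟩ := exists_normalizedEigenform_of_eigenvector v hv lam hT hU
  refine ⟨f, hf, fun ℓ hℓ hℓN => ?_, fun q hq hqN => ?_⟩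
  · rw [hfl ℓ hℓ]; simp only [lam, dif_pos hℓ, dif_neg hℓN]
  · rw [hfl q hq]; simp only [lam, dif_pos hq, dif_pos hqN]

end Fermat.Agent.S49.helper589
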