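import Mathlib

/-!
Abstract "Deligne–Serre lifting" algebra: a commutative ring of operators on a
finite-dimensional complex vector space preserving a finitely generated spanning lattice;
every proper ideal is contained in the preimage of a maximal ideal of the ring of algebraic
integers under an eigen-character that has an honest eigenvector.
-/

set_option autoImplicit false

namespace Fermat.Agent.S49.helper529

section CommonEigen

variable {K : Type*} [Field K] [IsAlgClosed K]
variable {V : Type*} [AddCommGroup V] [Module K V] [FiniteDimensional K V]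
variable {A : Type*} [CommRing A]

omit [IsAlgClosed K] [FiniteDimensional K V] in
theorem rho_comm (ρ : A →+* Module.End K V) (s t : A) (x : V) :
    ρ s (ρ t x) = ρ t (ρ s x) := by
  have h : ρ (s * t) = ρ (t * s) := by rw [mul_comm]
  rw [map_mul, map_mul] at h
  exact congrArg (fun φ : Module.End K V => φ x) h

/-- A commuting family of operators stabilising a nonzero subspace has a common eigenvector
in it. -/
theorem exists_common_eigenvector (ρ : A →+* Module.End K V) :
    ∀ (n : ℕ) (W : Submodule K V), Module.finrank K W = n → W ≠ ⊥ →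
      (∀ t : A, ∀ x ∈ W, ρ t x ∈ W) →
      ∃ v ∈ W, v ≠ 0 ∧ ∀ t : A, ∃ c : K, ρ t v = c • v := by
  intro n
  induction n using Nat.strong_induction_on with
  | _ n ih =>
    intro W hn hW hstab
    by_cases hsc : ∀ t : A, ∃ c : K, ∀ x ∈ W, ρ t x = c • x
    · obtain ⟨v, hvW, hv0⟩ := Submodule.exists_mem_ne_zero_of_ne_bot hW
      exact ⟨v, hvW, hv0, fun t => (hsc t).imp fun c hc => hc v hvW⟩
    · push Not at hsc
      obtain ⟨t, ht⟩ := hsc
      have hmaps : ∀ x ∈ W, ρ t x ∈ W := hstab t
      let f : Module.End K W := (ρ t).restrict hmaps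
      have : Nontrivial W := Submodule.nontrivial_iff_ne_bot.mpr hW
      obtain ⟨μ, hμ⟩ := Module.End.exists_eigenvalue f
      obtain ⟨w, hw⟩ := hμ.exists_hasEigenvector
      have hw1 : f w = μ • w := hw.apply_eq_smul
      have hw0 : (w : V) ≠ 0 := fun h0 => hw.2 (Subtype.ext h0)
      have hw2 : ρ t (w : V) = μ • (w : V) := by
        have := congrArg (Subtype.val) hw1
        simpa [f] using this
      let W' : Submodule K V := W ⊓ LinearMap.ker (ρ t - μ • (1 : Module.End K V))
      have hmemW' : ∀ x, x ∈ W' ↔ x ∈ W ∧ ρ t x = μ • x := by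
        intro x
        simp only [W', Submodule.mem_inf, LinearMap.mem_ker, LinearMap.sub_apply,
          LinearMap.smul_apply, Module.End.one_apply, sub_eq_zero]
      have hW'ne : W' ≠ ⊥ := by
        intro hbot
        have : (w : V) ∈ W' := (hmemW' _).2 ⟨w.2, hw2⟩
        rw [hbot, Submodule.mem_bot] at this
        exact hw0 this
      have hW'le : W' ≤ W := inf_le_left
      have hW'lt : W' < W := by
        refine lt_of_le_of_ne hW'le ?_
        intro heq
        obtain ⟨x, hxW, hx⟩ := ht μ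
        have : x ∈ W' := heq ▸ hxW
        exact hx ((hmemW' x).1 this).2
      have hfin : Module.finrank K W' < n := hn ▸ Submodule.finrank_lt_finrank_of_lt hW'lt
      have hstab' : ∀ s : A, ∀ x ∈ W', ρ s x ∈ W' := by
        intro s x hx
        rw [hmemW'] at hx ⊢
        refine ⟨hstab s x hx.1, ?_⟩
        rw [rho_comm ρ t s x, hx.2, map_smul]
      obtain ⟨v, hvW', hv0, hv⟩ := ih _ hfin W' rfl hW'ne hstab'
      exact ⟨v, hW'le hvW', hv0, hv⟩

/-- Refinement: the eigenvector can be chosen with annihilator inside a given prime containing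
the annihilator of the subspace. -/
theorem exists_eigenvector_ann_le (ρ : A →+* Module.End K V) (𝔪 : Ideal A) [𝔪.IsPrime] :
    ∀ (n : ℕ) (W : Submodule K V), Module.finrank K W = n →
      (∀ t : A, ∀ x ∈ W, ρ t x ∈ W) →
      (∀ t : A, (∀ x ∈ W, ρ t x = 0) → t ∈ 𝔪) →
      ∃ v ∈ W, v ≠ 0 ∧ (∀ t : A, ∃ c : K, ρ t v = c • v) ∧ ∀ t : A, ρ t v = 0 → t ∈ 𝔪 := by
  intro n
  induction n using Nat.strong_induction_on with
  | _ n ih =>
    intro W hn hstab hann
    have hW : W ≠ ⊥ := by
      intro hbot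
      have h1 : (1 : A) ∈ 𝔪 := hann 1 (fun x hx => by
        rw [hbot, Submodule.mem_bot] at hx
        simp [hx])
      exact (Ideal.IsPrime.ne_top ‹_›) ((Ideal.eq_top_iff_one 𝔪).2 h1)
    obtain ⟨v₁, hv₁W, hv₁0, hv₁⟩ := exists_common_eigenvector ρ n W hn hW hstab
    by_cases hgood : ∀ t : A, ρ t v₁ = 0 → t ∈ 𝔪
    · exact ⟨v₁, hv₁W, hv₁0, hv₁, hgood⟩
    · push Not at hgood
      obtain ⟨s, hs0, hs𝔪⟩ := hgood
      let W' : Submodule K V := W.map (ρ s)
      have hW'le : W' ≤ W := by
        rintro _ ⟨x, hx, rfl⟩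
        exact hstab s x hx
      have hW'ne : W' ≠ W := by
        intro heq
        let f : Module.End K W := (ρ s).restrict (hstab s)
        have hsurj : Function.Surjective f := by
          intro y
          have hy : (y : V) ∈ W' := by rw [heq]; exact y.2
          obtain ⟨x, hx, hxy⟩ := hy
          exact ⟨⟨x, hx⟩, Subtype.ext hxy⟩
        have hinj : Function.Injective f := LinearMap.injective_iff_surjective.mpr hsurj
        have h0 : f ⟨v₁, hv₁W⟩ = 0 := Subtype.ext hs0
        have : (⟨v₁, hv₁W⟩ : W) = 0 := hinj (by rw [h0, map_zero])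
        exact hv₁0 (congrArg Subtype.val this)
      have hfin : Module.finrank K W' < n :=
        hn ▸ Submodule.finrank_lt_finrank_of_lt (lt_of_le_of_ne hW'le hW'ne)
      have hstab' : ∀ t : A, ∀ x ∈ W', ρ t x ∈ W' := by
        rintro t _ ⟨x, hx, rfl⟩
        exact ⟨ρ t x, hstab t x hx, rho_comm ρ s t x⟩
      have hann' : ∀ t : A, (∀ x ∈ W', ρ t x = 0) → t ∈ 𝔪 := by
        intro t ht
        have hts : t * s ∈ 𝔪 := hann (t * s) (fun x hx => by
          rw [map_mul, Module.End.mul_apply]
          exact ht _ ⟨x, hx, rfl⟩)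
        exact (Ideal.IsPrime.mem_or_mem ‹_› hts).resolve_right hs𝔪
      obtain ⟨v, hvW', hv0, hv, hv𝔪⟩ := ih _ hfin W' rfl hstab' hann'
      exact ⟨v, hW'le hvW', hv0, hv, hv𝔪⟩

/-- A commutative ring acting on a finite-dimensional vector space over an algebraically closed
field: for any prime containing the kernel of the action there is an eigenvector whose
eigen-character has kernel inside that prime. -/
theorem exists_eigenchar_ker_le (ρ : A →+* Module.End K V) (𝔪 : Ideal A) [𝔪.IsPrime]
    (hker : RingHom.ker ρ ≤ 𝔪) :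
    ∃ (v : V) (χ : A →+* K), v ≠ 0 ∧ (∀ t, ρ t v = χ t • v) ∧ RingHom.ker χ ≤ 𝔪 := by
  obtain ⟨v, -, hv0, hv, hv𝔪⟩ := exists_eigenvector_ann_le ρ 𝔪 _ ⊤ rfl
    (fun _ _ _ => Submodule.mem_top)
    (fun t ht => hker (by
      rw [RingHom.mem_ker]
      ext x
      simpa using ht x Submodule.mem_top))
  choose χ hχ using hv
  have hinj : ∀ a b : K, a • v = b • v → a = b := fun a b h => smul_left_injective K hv0 h
  let χ' : A →+* K :=
    { toFun := χ
      map_one' := hinj _ _ (by rw [← hχ, map_one, Module.End.one_apply, one_smul])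
      map_mul' := fun s t => hinj _ _ (by
        rw [← hχ, map_mul, Module.End.mul_apply, hχ t, map_smul, hχ s, smul_smul, mul_comm])
      map_zero' := hinj _ _ (by rw [← hχ, map_zero, LinearMap.zero_apply, zero_smul])
      map_add' := fun s t => hinj _ _ (by
        rw [← hχ, map_add, LinearMap.add_apply, hχ s, hχ t, add_smul]) }
  refine ⟨v, χ', hv0, hχ, ?_⟩
  intro t ht
  apply hv𝔪
  rw [hχ]
  have : χ t = 0 := ht
  rw [this, zero_smul]

end CommonEigen

section Integral

variable {V : Type*} [AddCommGroup V] [Module ℂ V] [FiniteDimensional ℂ V]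

/-- An eigenvalue of an operator preserving a finitely generated spanning lattice is an
algebraic integer. -/
theorem isIntegral_eigenvalue_of_lattice
    (L : Submodule ℤ V) (hfg : L.FG) (hspan : Submodule.span ℂ (L : Set V) = ⊤)
    (φ : Module.End ℂ V) (hφ : ∀ x ∈ L, φ x ∈ L) (c : ℂ) (v : V) (hv : v ≠ 0)
    (hc : φ v = c • v) : IsIntegral ℤ c := by
  let ψ : Module.End ℂ V := φ - c • (1 : Module.End ℂ V)
  have hψv : ψ v = 0 := by simp [ψ, hc]
  have hψ : ¬ Function.Surjective ψ := fun hs => by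
    have hi : Function.Injective ψ := LinearMap.injective_iff_surjective.mpr hs
    exact hv (hi (by rw [hψv, map_zero]))
  let R : Submodule ℂ V := LinearMap.range ψ
  let π : V →ₗ[ℂ] V ⧸ R := R.mkQ
  let N : Submodule ℤ (V ⧸ R) := L.map (π.restrictScalars ℤ)
  have hπ : ∀ x : V, π (φ x) = c • π x := by
    intro x
    have hx : φ x - c • x ∈ R := ⟨x, by simp [ψ]⟩
    have : π (φ x - c • x) = 0 := (Submodule.Quotient.mk_eq_zero R).2 hx
    rw [map_sub, map_smul, sub_eq_zero] at this
    exact this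
  refine isIntegral_of_smul_mem_submodule N ?_ (hfg.map _) c ?_
  · intro hN
    apply hψ
    have hL : ∀ x ∈ L, x ∈ R := by
      intro x hx
      have h1 : π x ∈ N := ⟨x, hx, rfl⟩
      rw [hN, Submodule.mem_bot] at h1
      exact (Submodule.Quotient.mk_eq_zero R).1 h1
    have hR : R = ⊤ := by
      rw [eq_top_iff, ← hspan, Submodule.span_le]
      exact hL
    exact LinearMap.range_eq_top.1 hR
  · rintro _ ⟨x, hx, rfl⟩
    exact ⟨φ x, hφ x hx, hπ x⟩

end Integral

section Lift

variable {V : Type*} [AddCommGroup V] [Module ℂ V] [FiniteDimensional ℂ V]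
variable {A : Type*} [CommRing A]

/-- **Abstract lifting lemma** (Deligne–Serre). -/
theorem exists_eigen_lift (ρ : A →+* Module.End ℂ V) (hρ : Function.Injective ρ)
    (L : Submodule ℤ V) (hfg : L.FG) (hspan : Submodule.span ℂ (L : Set V) = ⊤)
    (hstab : ∀ t : A, ∀ x ∈ L, ρ t x ∈ L)
    (I : Ideal A) (hI : I ≠ ⊤) :
    ∃ (v : V) (χ : A →+* integralClosure ℤ ℂ) (𝔪' : Ideal (integralClosure ℤ ℂ)),
      v ≠ 0 ∧ 𝔪'.IsMaximal ∧ (∀ t : A, ρ t v = ((χ t : integralClosure ℤ ℂ) : ℂ) • v) ∧
        ∀ t ∈ I, χ t ∈ 𝔪' := by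
  obtain ⟨𝔪, h𝔪max, hI𝔪⟩ := Ideal.exists_le_maximal I hI
  have : 𝔪.IsPrime := h𝔪max.isPrime
  have hker : RingHom.ker ρ ≤ 𝔪 := by
    intro t ht
    have : t = 0 := hρ (by rw [RingHom.mem_ker.1 ht, map_zero])
    rw [this]
    exact 𝔪.zero_mem
  obtain ⟨v, χ, hv0, hχ, hχker⟩ := exists_eigenchar_ker_le ρ 𝔪 hker
  have hint : ∀ t : A, χ t ∈ integralClosure ℤ ℂ := fun t =>
    isIntegral_eigenvalue_of_lattice L hfg hspan (ρ t) (hstab t) (χ t) v hv0 (hχ t)
  let χ' : A →+* integralClosure ℤ ℂ := χ.codRestrict (integralClosure ℤ ℂ) hint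
  let _ : Algebra A (integralClosure ℤ ℂ) := χ'.toAlgebra
  have : Algebra.IsIntegral A (integralClosure ℤ ℂ) :=
    ⟨fun x => (integralClosure.isIntegral x).tower_top⟩
  have hker' : RingHom.ker (algebraMap A (integralClosure ℤ ℂ)) ≤ 𝔪 := by
    intro t ht
    apply hχker
    rw [RingHom.mem_ker] at ht ⊢
    have : χ' t = 0 := ht
    have h2 : ((χ' t : integralClosure ℤ ℂ) : ℂ) = 0 := by rw [this]; rfl
    exact h2
  obtain ⟨Q, hQmax, hQ⟩ := Ideal.exists_ideal_over_maximal_of_isIntegral
    (S := integralClosure ℤ ℂ) 𝔪 hker'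
  refine ⟨v, χ', Q, hv0, hQmax, fun t => hχ t, fun t ht => ?_⟩
  have : t ∈ Ideal.comap (algebraMap A (integralClosure ℤ ℂ)) Q := hQ ▸ hI𝔪 ht
  exact this

end Lift

end Fermat.Agent.S49.helper529
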