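import Mathlib

/-!
Abstract algebra behind the lifting lemma (S49).

* `exists_eigenvector_of_prime`: a commutative ring `H` acting linearly on a finite-dimensional
  vector space `V` over an algebraically closed field, and a prime `𝔮 ⊇ ker`, admit a common
  eigenvector whose eigencharacter has kernel inside `𝔮`.
* `isIntegral_eigenvalue_of_lattice`: eigenvalues of an endomorphism preserving a spanning
  finitely generated `ℤ`-lattice are algebraic integers.
* `exists_maximal_over`: lying over for the ring of all algebraic integers.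
-/

set_option autoImplicit false

namespace Fermat.Agent.S49.helper349

section Eigen

variable {K V H : Type*} [Field K] [AddCommGroup V] [Module K V] [CommRing H]

/-- If `H` acts by scalars on a subspace whose annihilator lies in the prime `𝔮`, we get an
eigencharacter with kernel in `𝔮` and an eigenvector. -/
theorem exists_char_of_scalar (ρ : H →+* Module.End K V) (𝔮 : Ideal H) (h𝔮 : 𝔮 ≠ ⊤)
    (W : Submodule K V)
    (hann : ∀ t : H, (∀ w ∈ W, ρ t w = 0) → t ∈ 𝔮)
    (hscal : ∀ t : H, ∃ c : K, ∀ w ∈ W, ρ t w = c • w) :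
    ∃ (χ : H →+* K) (v : V), v ≠ 0 ∧ (∀ t, ρ t v = χ t • v) ∧ RingHom.ker χ ≤ 𝔮 := by
  classical
  -- `W ≠ ⊥`
  have hW : ∃ v ∈ W, v ≠ 0 := by
    by_contra hcon
    push Not at hcon
    apply h𝔮
    rw [Ideal.eq_top_iff_one]
    apply hann
    intro w hw
    rw [hcon w hw, map_zero]
  obtain ⟨v, hvW, hv0⟩ := hW
  choose c hc using hscal
  have key : ∀ a b : K, a • v = b • v → a = b := by
    intro a b hab
    have h0 : (a - b) • v = 0 := by rw [sub_smul, hab, sub_self]
    rcases smul_eq_zero.mp h0 with h | h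
    · exact sub_eq_zero.mp h
    · exact absurd h hv0
  have h1 : c 1 = 1 := by
    apply key
    rw [← hc 1 v hvW, map_one, one_smul]
    rfl
  have hmul : ∀ s t, c (s * t) = c s * c t := by
    intro s t
    apply key
    rw [← hc (s * t) v hvW, map_mul, Module.End.mul_apply, hc t v hvW, map_smul, hc s v hvW,
      smul_smul, mul_comm]
  have h0 : c 0 = 0 := by
    apply key
    rw [← hc 0 v hvW, map_zero, zero_smul]
    rfl
  have hadd : ∀ s t, c (s + t) = c s + c t := by
    intro s t
    apply key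
    rw [← hc (s + t) v hvW, map_add, LinearMap.add_apply, hc s v hvW, hc t v hvW, add_smul]
  refine ⟨{ toFun := c, map_one' := h1, map_mul' := hmul, map_zero' := h0, map_add' := hadd },
    v, hv0, fun t => hc t v hvW, ?_⟩
  intro t ht
  rw [RingHom.mem_ker] at ht
  have ht' : c t = 0 := ht
  apply hann
  intro w hw
  rw [hc t w hw, ht', zero_smul]

variable [IsAlgClosed K] [FiniteDimensional K V]

/-- Inductive core: an invariant subspace whose annihilator lies in the prime `𝔮` contains an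
invariant subspace with the same property on which `H` acts by scalars. -/
theorem exists_scalar_subspace (ρ : H →+* Module.End K V) (𝔮 : Ideal H) [h𝔮 : 𝔮.IsPrime] :
    ∀ (n : ℕ) (W : Submodule K V), Module.finrank K W = n →
      (∀ t : H, ∀ w ∈ W, ρ t w ∈ W) →
      (∀ t : H, (∀ w ∈ W, ρ t w = 0) → t ∈ 𝔮) →
      ∃ W' : Submodule K V, (∀ t : H, (∀ w ∈ W', ρ t w = 0) → t ∈ 𝔮) ∧
        (∀ t : H, ∃ c : K, ∀ w ∈ W', ρ t w = c • w) := by
  intro n
  induction n using Nat.strong_induction_on with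
  | _ n ih =>
    intro W hn hinv hann
    by_cases hscal : ∀ t : H, ∃ c : K, ∀ w ∈ W, ρ t w = c • w
    · exact ⟨W, hann, hscal⟩
    push Not at hscal
    obtain ⟨t₀, ht₀⟩ := hscal
    -- `W` is nontrivial
    have hWne : ∃ v ∈ W, v ≠ 0 := by
      by_contra hcon
      push Not at hcon
      obtain ⟨w, hw, hw'⟩ := ht₀ 0
      apply hw'
      rw [hcon w hw, map_zero, smul_zero]
    have : Nontrivial W := by
      obtain ⟨v, hv, hv0⟩ := hWne
      exact ⟨⟨⟨v, hv⟩, 0, fun h => hv0 (congrArg Subtype.val h)⟩⟩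
    -- restricted endomorphism and an eigenvalue
    let g : Module.End K W := (ρ t₀).restrict (hinv t₀)
    obtain ⟨μ, hμ⟩ := Module.End.exists_eigenvalue g
    obtain ⟨w₀, hw₀⟩ := hμ.exists_hasEigenvector
    have hw₀eq : ρ t₀ (w₀ : V) = μ • (w₀ : V) := by
      have := congrArg Subtype.val hw₀.apply_eq_smul
      simpa [g] using this
    have hw₀ne : (w₀ : V) ≠ 0 := fun h => hw₀.2 (Subtype.ext h)
    set φ : Module.End K V := ρ t₀ - μ • 1 with hφ
    have hφapp : ∀ x, φ x = ρ t₀ x - μ • x := by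
      intro x
      simp [hφ]
    have hcomm : ∀ t x, φ (ρ t x) = ρ t (φ x) := by
      intro t x
      rw [hφapp, hφapp, map_sub, map_smul]
      congr 1
      rw [← Module.End.mul_apply, ← Module.End.mul_apply, ← map_mul, ← map_mul, mul_comm]
    have hφW : ∀ w ∈ W, φ w ∈ W := by
      intro w hw
      rw [hφapp]
      exact W.sub_mem (hinv t₀ w hw) (W.smul_mem μ hw)
    -- the two smaller subspaces
    let W₁ : Submodule K V := W ⊓ LinearMap.ker φ
    let W₂ : Submodule K V := W.map φ
    have hW₁le : W₁ ≤ W := inf_le_left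
    have hW₂le : W₂ ≤ W := by
      rintro _ ⟨w, hw, rfl⟩
      exact hφW w hw
    have hW₁ne : W₁ ≠ W := by
      intro heq
      obtain ⟨w, hw, hw'⟩ := ht₀ μ
      apply hw'
      have : w ∈ W₁ := heq ▸ hw
      have h2 : φ w = 0 := LinearMap.mem_ker.mp this.2
      rw [hφapp, sub_eq_zero] at h2
      exact h2
    have hW₂ne : W₂ ≠ W := by
      intro heq
      -- then `φ` restricted to `W` is surjective, hence injective
      let g' : Module.End K W := φ.restrict hφW
      have hsurj : Function.Surjective g' := by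
        rintro ⟨y, hy⟩
        have : y ∈ W₂ := heq ▸ hy
        obtain ⟨x, hx, rfl⟩ := this
        exact ⟨⟨x, hx⟩, Subtype.ext rfl⟩
      have hinj : Function.Injective g' := LinearMap.injective_iff_surjective.mpr hsurj
      have h0 : g' w₀ = 0 := by
        apply Subtype.ext
        show φ (w₀ : V) = 0
        rw [hφapp, hw₀eq, sub_self]
      have : w₀ = 0 := hinj (by rw [h0, map_zero])
      exact hw₀.2 this
    have hlt₁ : Module.finrank K W₁ < n := by
      rw [← hn]
      exact Submodule.finrank_lt_finrank_of_lt (lt_of_le_of_ne hW₁le hW₁ne)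
    have hlt₂ : Module.finrank K W₂ < n := by
      rw [← hn]
      exact Submodule.finrank_lt_finrank_of_lt (lt_of_le_of_ne hW₂le hW₂ne)
    have hinv₁ : ∀ t : H, ∀ w ∈ W₁, ρ t w ∈ W₁ := by
      intro t w hw
      refine ⟨hinv t w hw.1, ?_⟩
      show φ (ρ t w) = 0
      rw [hcomm, LinearMap.mem_ker.mp hw.2, map_zero]
    have hinv₂ : ∀ t : H, ∀ w ∈ W₂, ρ t w ∈ W₂ := by
      rintro t _ ⟨w, hw, rfl⟩
      exact ⟨ρ t w, hinv t w hw, hcomm t w⟩
    -- one of the two has annihilator inside `𝔮`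
    have hor : (∀ t : H, (∀ w ∈ W₁, ρ t w = 0) → t ∈ 𝔮) ∨
        (∀ t : H, (∀ w ∈ W₂, ρ t w = 0) → t ∈ 𝔮) := by
      by_contra hcon
      push Not at hcon
      obtain ⟨⟨s₁, hs₁, hs₁'⟩, ⟨s₂, hs₂, hs₂'⟩⟩ := hcon
      have hmem : s₁ * s₂ ∈ 𝔮 := by
        apply hann
        intro w hw
        rw [map_mul, Module.End.mul_apply]
        apply hs₁
        refine ⟨hinv s₂ w hw, ?_⟩
        show φ (ρ s₂ w) = 0
        rw [hcomm]
        exact hs₂ _ ⟨w, hw, rfl⟩
      rcases h𝔮.mem_or_mem hmem with h | h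
      · exact hs₁' h
      · exact hs₂' h
    rcases hor with h | h
    · exact ih _ hlt₁ W₁ rfl hinv₁ h
    · exact ih _ hlt₂ W₂ rfl hinv₂ h

/-- **Common eigenvector below a prime.** A commutative ring `H` acting on a finite-dimensional
vector space over an algebraically closed field, with the kernel of the action contained in a
prime ideal `𝔮`, has a common eigenvector whose eigencharacter has kernel contained in `𝔮`. -/
theorem exists_eigenvector_of_prime (ρ : H →+* Module.End K V) (𝔮 : Ideal H) [h𝔮 : 𝔮.IsPrime]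
    (hker : RingHom.ker ρ ≤ 𝔮) :
    ∃ (χ : H →+* K) (v : V), v ≠ 0 ∧ (∀ t, ρ t v = χ t • v) ∧ RingHom.ker χ ≤ 𝔮 := by
  have htop : ∀ t : H, (∀ w ∈ (⊤ : Submodule K V), ρ t w = 0) → t ∈ 𝔮 := by
    intro t ht
    apply hker
    rw [RingHom.mem_ker]
    ext w
    simpa using ht w Submodule.mem_top
  obtain ⟨W', hann, hscal⟩ := exists_scalar_subspace ρ 𝔮 _ ⊤ rfl (fun _ _ _ => Submodule.mem_top) htop
  exact exists_char_of_scalar ρ 𝔮 h𝔮.ne_top W' hann hscal

end Eigen

section Integral

/-- An eigenvalue of a `ℂ`-linear endomorphism preserving a finitely generated `ℤ`-lattice which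
spans the (finite-dimensional) space is an algebraic integer. -/
theorem isIntegral_eigenvalue_of_lattice {V : Type*} [AddCommGroup V] [Module ℂ V]
    [FiniteDimensional ℂ V] (L : Submodule ℤ V) (hfg : L.FG)
    (hspan : Submodule.span ℂ (L : Set V) = ⊤) (t : Module.End ℂ V)
    (hstab : ∀ x ∈ L, t x ∈ L) (μ : ℂ) (v : V) (hv : v ≠ 0) (hμ : t v = μ • v) :
    IsIntegral ℤ μ := by
  set φ : Module.End ℂ V := t - μ • 1 with hφ
  have hφapp : ∀ x, φ x = t x - μ • x := by
    intro x
    simp [hφ]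
  have hker : LinearMap.ker φ ≠ ⊥ := by
    intro h
    have : v ∈ LinearMap.ker φ := by
      rw [LinearMap.mem_ker, hφapp, hμ, sub_self]
    rw [h, Submodule.mem_bot] at this
    exact hv this
  have hrange : LinearMap.range φ < ⊤ := by
    rw [lt_top_iff_ne_top]
    intro h
    apply hker
    rw [LinearMap.ker_eq_bot]
    exact LinearMap.injective_iff_surjective.mpr (LinearMap.range_eq_top.mp h)
  obtain ⟨ψ, hψ0, hψ⟩ := Submodule.exists_le_ker_of_lt_top _ hrange
  have hψt : ∀ x, ψ (t x) = μ * ψ x := by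
    intro x
    have : φ x ∈ LinearMap.ker ψ := hψ ⟨x, rfl⟩
    rw [LinearMap.mem_ker, hφapp, map_sub, map_smul, sub_eq_zero] at this
    rw [this, smul_eq_mul]
  let N : Submodule ℤ ℂ := L.map (ψ.restrictScalars ℤ)
  have hNfg : N.FG := hfg.map _
  have hNne : N ≠ ⊥ := by
    intro h
    apply hψ0
    have hL : (L : Set V) ⊆ LinearMap.ker ψ := by
      intro x hx
      have : ψ x ∈ N := ⟨x, hx, rfl⟩
      rw [h, Submodule.mem_bot] at this
      exact this
    have htop : LinearMap.ker ψ = ⊤ := by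
      rw [eq_top_iff, ← hspan]
      exact Submodule.span_le.mpr hL
    exact LinearMap.ker_eq_top.mp htop
  refine isIntegral_of_smul_mem_submodule N hNne hNfg μ ?_
  rintro _ ⟨x, hx, rfl⟩
  refine ⟨t x, hstab x hx, ?_⟩
  show ψ (t x) = μ • ψ x
  rw [hψt, smul_eq_mul]

end Integral

section LyingOver

/-- **Lying over for the ring of algebraic integers.** If `χ : H →+* ℂ` has integral values and
`𝔮` is a prime of `H` containing `ker χ`, there is a maximal ideal of `integralClosure ℤ ℂ`
containing the image of `𝔮`. -/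
theorem exists_maximal_over {H : Type*} [CommRing H] (χ : H →+* ℂ)
    (hint : ∀ t, IsIntegral ℤ (χ t)) (𝔮 : Ideal H) [h𝔮 : 𝔮.IsPrime]
    (hker : RingHom.ker χ ≤ 𝔮) :
    ∃ (χ' : H →+* integralClosure ℤ ℂ) (𝔪' : Ideal (integralClosure ℤ ℂ)),
      (∀ t, ((χ' t : integralClosure ℤ ℂ) : ℂ) = χ t) ∧ 𝔪'.IsMaximal ∧ ∀ t ∈ 𝔮, χ' t ∈ 𝔪' := by
  let χ' : H →+* integralClosure ℤ ℂ := χ.codRestrict (integralClosure ℤ ℂ) hint
  have hχ' : ∀ t, ((χ' t : integralClosure ℤ ℂ) : ℂ) = χ t := fun t => rfl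
  let _ : Algebra H (integralClosure ℤ ℂ) := χ'.toAlgebra
  have halg : ∀ t, algebraMap H (integralClosure ℤ ℂ) t = χ' t := fun t => rfl
  have : IsScalarTower ℤ H (integralClosure ℤ ℂ) :=
    IsScalarTower.of_algebraMap_eq' (Subsingleton.elim _ _)
  have : Algebra.IsIntegral H (integralClosure ℤ ℂ) :=
    ⟨fun x => IsIntegral.tower_top (R := ℤ) (integralClosure.isIntegral x)⟩
  have hcomap : Ideal.comap (algebraMap H (integralClosure ℤ ℂ)) ⊥ ≤ 𝔮 := by
    intro t ht
    apply hker
    rw [Ideal.mem_comap, Ideal.mem_bot, halg] at ht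
    rw [RingHom.mem_ker, ← hχ' t, ht]
    rfl
  obtain ⟨Q, -, hQprime, hQ⟩ := Ideal.exists_ideal_over_prime_of_isIntegral 𝔮 ⊥ hcomap
  obtain ⟨𝔪', h𝔪', hQ𝔪'⟩ := Ideal.exists_le_maximal Q hQprime.ne_top
  refine ⟨χ', 𝔪', hχ', h𝔪', ?_⟩
  intro t ht
  apply hQ𝔪'
  have : t ∈ Ideal.comap (algebraMap H (integralClosure ℤ ℂ)) Q := by rw [hQ]; exact ht
  exact this

end LyingOver

end Fermat.Agent.S49.helper349
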