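import Mathlib

set_option autoImplicit false

namespace Fermat.Agent.S49.helper49

/-- Common eigenvector for a commutative ring acting on a finite-dimensional space over an
algebraically closed field, with the kernel of the eigencharacter inside a given prime ideal
containing the annihilator. -/
theorem exists_common_eigenvector_aux {K : Type*} [Field K] [IsAlgClosed K] {V : Type*}
    [AddCommGroup V] [Module K V] [FiniteDimensional K V]
    {A : Type*} [CommRing A] (ρ : A →+* Module.End K V) (𝔪 : Ideal A) [𝔪.IsPrime] (n : ℕ) :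
    ∀ (W : Submodule K V), Module.finrank K W = n → W ≠ ⊥ →
      (∀ a : A, ∀ w ∈ W, ρ a w ∈ W) →
      (∀ a : A, (∀ w ∈ W, ρ a w = 0) → a ∈ 𝔪) →
      ∃ g ∈ W, g ≠ 0 ∧ ∃ χ : A → K, (∀ a, ρ a g = χ a • g) ∧ ∀ a, χ a = 0 → a ∈ 𝔪 := by
  induction n using Nat.strong_induction_on with
  | _ n ih =>
    intro W hn hW hstab hann
    have hcomm : ∀ a b : A, ∀ v : V, ρ a (ρ b v) = ρ b (ρ a v) := by
      intro a b v
      have h1 : ρ (a * b) v = ρ a (ρ b v) := by rw [map_mul]; rfl
      have h2 : ρ (b * a) v = ρ b (ρ a v) := by rw [map_mul]; rfl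
      rw [← h1, ← h2, mul_comm]
    by_cases hscal : ∀ a : A, ∃ c : K, ∀ w ∈ W, ρ a w = c • w
    · choose χ hχ using hscal
      obtain ⟨g, hgW, hg0⟩ := (Submodule.ne_bot_iff W).1 hW
      refine ⟨g, hgW, hg0, χ, fun a => hχ a g hgW, fun a ha => hann a fun w hw => ?_⟩
      rw [hχ a w hw, ha, zero_smul]
    · push Not at hscal
      obtain ⟨a, ha⟩ := hscal
      -- restriction of `ρ a` to `W`
      have hnt : Nontrivial W := Submodule.nontrivial_iff_ne_bot.2 hW
      let T : Module.End K W := (ρ a).restrict (hstab a)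
      obtain ⟨μ, hμ⟩ := Module.End.exists_eigenvalue T
      obtain ⟨w₀, hw₀⟩ := hμ.exists_hasEigenvector
      have hw₀eq : ρ a (w₀ : V) = μ • (w₀ : V) := by
        have := hw₀.apply_eq_smul
        have h2 := congrArg Subtype.val this
        simpa [T] using h2
      have hw₀ne : (w₀ : V) ≠ 0 := fun h => hw₀.2 (Subtype.ext h)
      let S : Module.End K V := ρ a - μ • (1 : Module.End K V)
      have hS_apply : ∀ v, S v = ρ a v - μ • v := fun v => rfl
      have hScomm : ∀ b : A, ∀ v : V, S (ρ b v) = ρ b (S v) := by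
        intro b v
        rw [hS_apply, hS_apply, map_sub, map_smul, hcomm a b v]
      have hSW : ∀ w ∈ W, S w ∈ W := fun w hw => by
        rw [hS_apply]; exact W.sub_mem (hstab a w hw) (W.smul_mem μ hw)
      -- the two proper invariant subspaces
      let W' : Submodule K V := W ⊓ LinearMap.ker S
      let W'' : Submodule K V := W.map S
      have hW'le : W' ≤ W := inf_le_left
      have hW''le : W'' ≤ W := by
        rintro _ ⟨w, hw, rfl⟩; exact hSW w hw
      have hw₀W' : (w₀ : V) ∈ W' := by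
        refine Submodule.mem_inf.2 ⟨w₀.2, LinearMap.mem_ker.2 ?_⟩
        rw [hS_apply, hw₀eq, sub_self]
      have hW'ne : W' ≠ ⊥ := fun h => hw₀ne (by simpa [h] using hw₀W')
      obtain ⟨w₁, hw₁W, hw₁⟩ := ha μ
      have hSw₁ : S w₁ ≠ 0 := by
        rw [hS_apply]; exact sub_ne_zero.2 hw₁
      have hW''ne : W'' ≠ ⊥ := fun h => hSw₁ (by
        have : S w₁ ∈ W'' := ⟨w₁, hw₁W, rfl⟩
        simpa [h] using this)
      have hW'lt : W' < W := by
        refine lt_of_le_of_ne hW'le fun h => hSw₁ ?_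
        have : w₁ ∈ W' := h ▸ hw₁W
        exact LinearMap.mem_ker.1 (Submodule.mem_inf.1 this).2
      have hW''lt : W'' < W := by
        refine lt_of_le_of_ne hW''le fun h => hw₀ne ?_
        let SW : W →ₗ[K] W := S.restrict hSW
        have hsurj : Function.Surjective SW := by
          rintro ⟨w, hw⟩
          have hw' : w ∈ W'' := h ▸ hw
          obtain ⟨w', hw'W, rfl⟩ := hw'
          exact ⟨⟨w', hw'W⟩, Subtype.ext rfl⟩
        have hinj : Function.Injective SW := LinearMap.injective_iff_surjective.2 hsurj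
        have h0 : SW w₀ = SW 0 := by
          rw [map_zero]
          apply Subtype.ext
          change S (w₀ : V) = 0
          exact LinearMap.mem_ker.1 (Submodule.mem_inf.1 hw₀W').2
        have := hinj h0
        exact congrArg Subtype.val this
      have hstab' : ∀ b : A, ∀ w ∈ W', ρ b w ∈ W' := by
        intro b w hw
        have hw' := Submodule.mem_inf.1 hw
        refine Submodule.mem_inf.2 ⟨hstab b w hw'.1, LinearMap.mem_ker.2 ?_⟩
        rw [hScomm, LinearMap.mem_ker.1 hw'.2, map_zero]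
      have hstab'' : ∀ b : A, ∀ w ∈ W'', ρ b w ∈ W'' := by
        rintro b _ ⟨w, hw, rfl⟩
        exact ⟨ρ b w, hstab b w hw, hScomm b w⟩
      by_cases hann' : ∀ b : A, (∀ w ∈ W', ρ b w = 0) → b ∈ 𝔪
      · obtain ⟨g, hg, hg0, χ, h1, h2⟩ :=
          ih _ (hn ▸ Submodule.finrank_lt_finrank_of_lt hW'lt) W' rfl hW'ne hstab' hann'
        exact ⟨g, hW'le hg, hg0, χ, h1, h2⟩
      · push Not at hann'
        obtain ⟨b', hb', hb'𝔪⟩ := hann'
        have hann'' : ∀ b : A, (∀ w ∈ W'', ρ b w = 0) → b ∈ 𝔪 := by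
          intro b hb
          have hmem : b' * b ∈ 𝔪 := by
            refine hann _ fun w hw => ?_
            have h1 : ρ (b' * b) w = ρ b' (ρ b w) := by rw [map_mul]; rfl
            rw [h1]
            refine hb' _ (Submodule.mem_inf.2 ⟨hstab b w hw, LinearMap.mem_ker.2 ?_⟩)
            rw [hScomm, hb (S w) ⟨w, hw, rfl⟩]
          exact (Ideal.IsPrime.mem_or_mem inferInstance hmem).resolve_left hb'𝔪
        obtain ⟨g, hg, hg0, χ, h1, h2⟩ :=
          ih _ (hn ▸ Submodule.finrank_lt_finrank_of_lt hW''lt) W'' rfl hW''ne hstab'' hann''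
        exact ⟨g, hW''le hg, hg0, χ, h1, h2⟩

theorem exists_common_eigenvector {K : Type*} [Field K] [IsAlgClosed K] {V : Type*}
    [AddCommGroup V] [Module K V] [FiniteDimensional K V] [Nontrivial V]
    {A : Type*} [CommRing A] (ρ : A →+* Module.End K V) (𝔪 : Ideal A) [𝔪.IsPrime]
    (hann : ∀ a : A, ρ a = 0 → a ∈ 𝔪) :
    ∃ g : V, g ≠ 0 ∧ ∃ χ : A →+* K, (∀ a, ρ a g = χ a • g) ∧ ∀ a, χ a = 0 → a ∈ 𝔪 := by
  obtain ⟨g, -, hg0, χ, h1, h2⟩ := exists_common_eigenvector_aux ρ 𝔪 _ (⊤ : Submodule K V) rfl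
    top_ne_bot (fun _ _ _ => Submodule.mem_top)
    (fun a ha => hann a (LinearMap.ext fun v => ha v Submodule.mem_top))
  have hinj : ∀ c d : K, c • g = d • g → c = d := fun c d h =>
    smul_left_injective K hg0 h
  refine ⟨g, hg0, ⟨⟨⟨χ, ?_⟩, ?_⟩, ?_, ?_⟩, h1, h2⟩
  · apply hinj
    rw [← h1, map_one, one_smul]; rfl
  · intro a b
    apply hinj
    rw [← h1, map_mul, mul_smul]
    change ρ a (ρ b g) = _
    rw [h1 b, map_smul, h1 a, smul_comm]
  · apply hinj
    change χ 0 • g = (0 : K) • g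
    rw [← h1, map_zero, zero_smul]; rfl
  · intro a b
    apply hinj
    change χ (a + b) • g = (χ a + χ b) • g
    rw [← h1, map_add, add_smul, ← h1, ← h1]; rfl

end Fermat.Agent.S49.helper49
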