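import Mathlib
import Fermat.Prelude.Def_CuspForm_IntegralLattice
import Fermat.Prelude.Def_FormalHecke_Eigensystem
import Fermat.Prelude.Def_ModularForm_EisensteinChiNegThree
import Fermat.Prelude.Def_CuspForm_HeckeAlgebra
import Fermat.Prelude.Thm_CuspForm_intLattice_fg
import Fermat.Prelude.Thm_CuspForm_mem_intLattice_of_mem_heckeAlgebra
import Fermat.Prelude.Thm_ModularFormClass_qCoeff_heckeT

set_option autoImplicit false
open CuspForm EisensteinWeightOne CongruenceSubgroup ModularFormClass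

namespace Fermat.Agent.S49.helper747

open P2MW.S_CuspForm_intLattice_fg.W3WsD

/-- `chiNegThree n ≡ n (mod 3)`. -/
theorem chiNegThree_modEq (n : ℕ) : (3 : ℤ) ∣ (n : ℤ) - chiNegThree n := by
  unfold chiNegThree
  have h3 : n % 3 < 3 := Nat.mod_lt _ (by norm_num)
  have hn : (n : ℤ) = 3 * ((n / 3 : ℕ) : ℤ) + ((n % 3 : ℕ) : ℤ) := by
    exact_mod_cast (Nat.div_add_mod n 3).symm
  interval_cases h : n % 3
  · simp only [zero_ne_one, if_false, show (0 : ℕ) ≠ 2 by norm_num]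
    rw [hn]; exact ⟨(n / 3 : ℕ), by push_cast; ring⟩
  · simp only [if_true]
    rw [hn]; exact ⟨(n / 3 : ℕ), by push_cast; ring⟩
  · simp only [show (2 : ℕ) ≠ 1 by norm_num, if_false, if_true]
    rw [hn]; exact ⟨(n / 3 : ℕ) + 1, by push_cast; ring⟩

/-- The bridge product is congruent to the original sequence modulo 3. -/
theorem bridgeProduct_coeff_modEq (a : ℕ → ℤ) (n : ℕ) :
    (3 : ℤ) ∣ (bridgeProduct a).coeff n - a n := by
  have hE : e1Chi3In ℤ = 1 + PowerSeries.C (3 : ℤ) *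
      PowerSeries.mk (fun n => if n = 0 then 0 else 2 * sigmaChi n) := by
    ext m
    simp only [e1Chi3In, e1Chi3, PowerSeries.coeff_map, PowerSeries.coeff_mk, map_add,
      PowerSeries.coeff_one, PowerSeries.coeff_C_mul, Int.coe_castRingHom, Int.cast_id]
    by_cases hm : m = 0
    · simp [hm]
    · simp [hm]; ring
  unfold bridgeProduct
  rw [hE, mul_add, mul_one, map_add, PowerSeries.coeff_mk, ← mul_assoc, mul_comm _ (PowerSeries.C (3 : ℤ)),
    mul_assoc, PowerSeries.coeff_C_mul]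
  exact ⟨(PowerSeries.coeff n) (PowerSeries.mk a *
    PowerSeries.mk fun n => if n = 0 then 0 else 2 * sigmaChi n), by ring⟩

variable {N : ℕ} [NeZero N]

omit [NeZero N] in
/-- q-coefficients of a complex scalar multiple of a cusp form. -/
theorem qCoeff_smul' (c : ℂ) (f : CuspForm (Gamma0 N) 2) (n : ℕ) :
    qCoeff ⇑(c • f) n = c * qCoeff ⇑f n := by
  have h1 : ⇑(c • f) = c • ⇑f := by
    ext z
    simp
  simp only [qCoeff, h1]
  rw [ModularForm.qExpansion_smul one_pos (hΓ N) c f]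
  simp

omit [NeZero N] in
/-- A cusp form all of whose q-coefficients are integers divisible by `3` is three times an
element of the integral lattice. -/
theorem exists_eq_three_smul (h : CuspForm (Gamma0 N) 2)
    (hh : ∀ n : ℕ, ∃ m : ℤ, qCoeff h n = ((3 * m : ℤ) : ℂ)) :
    ∃ g ∈ CuspForm.intLattice N 2, h = (3 : ℤ) • g := by
  refine ⟨((3 : ℂ)⁻¹) • h, ?_, ?_⟩
  · rw [mem_intLattice_iff]
    intro n
    obtain ⟨m, hm⟩ := hh n
    exact ⟨m, by rw [qCoeff_smul', hm]; push_cast; field_simp⟩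
  · ext z
    simp

/-- The ideal of Hecke operators sending `f0` into three times the integral lattice. -/
def modThreeIdeal (f0 : CuspForm (Gamma0 N) 2) : Ideal (CuspForm.heckeAlgebra N 2 ∅) where
  carrier := {t | ∃ g ∈ CuspForm.intLattice N 2,
    (t : Module.End ℂ (CuspForm (Gamma0 N) 2)) f0 = (3 : ℤ) • g}
  add_mem' := by
    rintro t t' ⟨g, hg, h⟩ ⟨g', hg', h'⟩
    exact ⟨g + g', add_mem hg hg', by
      rw [Subalgebra.coe_add, LinearMap.add_apply, h, h', smul_add]⟩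
  zero_mem' := ⟨0, zero_mem _, by simp⟩
  smul_mem' := by
    rintro c t ⟨g, hg, h⟩
    refine ⟨(c : Module.End ℂ (CuspForm (Gamma0 N) 2)) g,
      CuspForm.mem_intLattice_of_mem_heckeAlgebra (by norm_num) c.2 hg, ?_⟩
    rw [smul_eq_mul, Subalgebra.coe_mul, Module.End.mul_apply, h, map_zsmul]

theorem mem_modThreeIdeal (f0 : CuspForm (Gamma0 N) 2) (t : CuspForm.heckeAlgebra N 2 ∅) :
    t ∈ modThreeIdeal f0 ↔ ∃ g ∈ CuspForm.intLattice N 2,
      (t : Module.End ℂ (CuspForm (Gamma0 N) 2)) f0 = (3 : ℤ) • g := Iff.rfl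

/-- B2: the mod 3 ideal. -/
theorem exists_ideal_of_latticeRealized {a : ℕ → ℤ}
    (heig : FormalHecke.IsEigensystem
      (fun ℓ => if ℓ ∣ N then 0 else ((chiNegThree ℓ : ℤ) : ℤ)) a)
    (hreal : CuspForm.IsLatticeRealized N a) :
    ∃ I : Ideal (CuspForm.heckeAlgebra N 2 ∅), I ≠ ⊤ ∧
      (3 : CuspForm.heckeAlgebra N 2 ∅) ∈ I ∧
      ∀ (ℓ : ℕ) (hℓ : ℓ.Prime) (hℓN : ¬ ℓ ∣ N),
        CuspForm.heckeAlgebra.T hℓ hℓN (Set.notMem_empty ℓ) -
          (a ℓ : CuspForm.heckeAlgebra N 2 ∅) ∈ I := by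
  obtain ⟨f0, hf0, af, haf, h3⟩ := hreal
  have haf3 : ∀ n, (3 : ℤ) ∣ af n - a n := fun n => by
    have := dvd_add (h3 n) (bridgeProduct_coeff_modEq a n)
    simpa using this
  have hf0L : f0 ∈ CuspForm.intLattice N 2 :=
    (mem_intLattice_iff f0).2 fun n => ⟨af n, (haf n).symm⟩
  refine ⟨modThreeIdeal f0, ?_, ?_, ?_⟩
  · intro htop
    have h1 : (1 : CuspForm.heckeAlgebra N 2 ∅) ∈ modThreeIdeal f0 := htop ▸ Submodule.mem_top
    obtain ⟨g, hg, h⟩ := h1
    rw [OneMemClass.coe_one, Module.End.one_apply] at h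
    obtain ⟨m, hm⟩ := (mem_intLattice_iff g).1 hg 1
    have h2 : (af 1 : ℂ) = ((3 * m : ℤ) : ℂ) := by
      rw [haf 1, h, qCoeff_zsmul, hm]; push_cast; ring
    have h3' : af 1 = 3 * m := by exact_mod_cast h2
    have h4 := haf3 1
    rw [heig.1, h3'] at h4
    omega
  · refine ⟨f0, hf0L, ?_⟩
    have h3e : ((3 : CuspForm.heckeAlgebra N 2 ∅) : Module.End ℂ (CuspForm (Gamma0 N) 2)) =
        (3 : ℤ) • (1 : Module.End ℂ (CuspForm (Gamma0 N) 2)) := by
      have : (3 : CuspForm.heckeAlgebra N 2 ∅) = (3 : ℤ) • (1 : CuspForm.heckeAlgebra N 2 ∅) := by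
        simp
      rw [this]
      rfl
    rw [h3e, LinearMap.smul_apply, Module.End.one_apply]
  · intro ℓ hℓ hℓN
    have key : ∀ n : ℕ, ∃ m : ℤ,
        qCoeff ⇑(CuspForm.heckeTLin 2 hℓ hℓN f0 + (-(a ℓ) : ℤ) • f0) n = ((3 * m : ℤ) : ℂ) := by
      intro n
      rw [qCoeff_add, qCoeff_zsmul, CuspForm.coe_heckeTLin_apply,
        ModularFormClass.qCoeff_heckeT f0 (hΓ N) hℓ.ne_zero n, ModularForm.coeffHeckeT_apply]
      simp only [← haf]
      have e := heig.2 ℓ hℓ n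
      simp only [if_neg hℓN] at e
      obtain ⟨c1, hc1⟩ := haf3 (n * ℓ)
      obtain ⟨c2, hc2⟩ := haf3 n
      obtain ⟨c3, hc3⟩ := haf3 (n / ℓ)
      obtain ⟨c4, hc4⟩ := chiNegThree_modEq ℓ
      rw [mul_comm ℓ n] at e
      by_cases hd : ℓ ∣ n
      · rw [if_pos hd] at e ⊢
        refine ⟨c1 + ℓ * c3 + c4 * a (n / ℓ) - a ℓ * c2, ?_⟩
        have : af (n * ℓ) + (ℓ : ℤ) * af (n / ℓ) + -(a ℓ) * af n =
            3 * (c1 + ℓ * c3 + c4 * a (n / ℓ) - a ℓ * c2) := by
          linear_combination hc1 + (ℓ : ℤ) * hc3 + a (n / ℓ) * hc4 - a ℓ * hc2 + e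
        have := congrArg (Int.cast : ℤ → ℂ) this
        push_cast at this ⊢
        rw [← this]
        norm_num
      · rw [if_neg hd] at e ⊢
        refine ⟨c1 - a ℓ * c2, ?_⟩
        have : af (n * ℓ) + -(a ℓ) * af n = 3 * (c1 - a ℓ * c2) := by
          linear_combination hc1 - a ℓ * hc2 + e
        have := congrArg (Int.cast : ℤ → ℂ) this
        push_cast at this ⊢
        rw [← this]
        ring
    obtain ⟨g, hg, h⟩ := exists_eq_three_smul _ key
    refine ⟨g, hg, ?_⟩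
    rw [← h]
    simp [sub_eq_add_neg]

end Fermat.Agent.S49.helper747
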